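import Mathlib

/-!
# PROJECT R (S41), slice NonEis: the abstract core

`V` a two-dimensional `𝔽_p`-vector space (`p` odd) with an irreducible action `ρ` of a group `G`;
`H ⊴ G` with `G/H` abelian; `ω : G → 𝔽_pˣ` (the cyclotomic character); `𝔉 ⊆ G` a set of
"Frobenius elements", each satisfying a quadratic relation `τ² - a τ + ω(τ) = 0` on `V`, dense in
the cyclic sense (`hdens`); an involution `c` with `ω c = -1`.

If every Frobenius element lying in `H` is unipotent on `V`, we get a contradiction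
(`Core.false_of_unipotent`): `H` acts trivially (Kolchin by counting), the image of `G` is
commutative, `det ρ = ω` (the non-scalar elements generate), and `ρ c = ±1` has determinant `1`.
No Weil pairing is used.
-/

set_option autoImplicit false
set_option linter.unusedSectionVars false
set_option linter.style.haveILetI false

namespace Fermat.Agent.S41.NonEis.Core

open Module

variable {p : ℕ} [hp : Fact p.Prime]
variable {G : Type*} [Group G] {V : Type*} [AddCommGroup V] [Module (ZMod p) V]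

/-! ### `2 × 2` linear algebra -/

/-- Cayley–Hamilton for `2 × 2` matrices. -/
theorem matrix_sq_fin_two {R : Type*} [CommRing R] (M : Matrix (Fin 2) (Fin 2) R) :
    M * M = M.trace • M - M.det • (1 : Matrix (Fin 2) (Fin 2) R) := by
  ext i j
  fin_cases i <;> fin_cases j <;>
    simp [Matrix.mul_apply, Fin.sum_univ_two, Matrix.trace_fin_two, Matrix.det_fin_two] <;> ring

/-- a non-scalar endomorphism of a plane killed by `X² - aX + r` has determinant `r`. -/
theorem det_eq_of_quadratic (hfin : finrank (ZMod p) V = 2) (T : Module.End (ZMod p) V)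
    (a r : ZMod p) (hT : T * T - a • T + r • (1 : Module.End (ZMod p) V) = 0)
    (hns : ∀ s : ZMod p, T ≠ s • (1 : Module.End (ZMod p) V)) : LinearMap.det T = r := by
  have : Module.Finite (ZMod p) V := Module.finite_of_finrank_pos (by rw [hfin]; norm_num)
  let b : Basis (Fin 2) (ZMod p) V := Module.finBasisOfFinrankEq (ZMod p) V hfin
  obtain ⟨M, hM⟩ : ∃ M, M = LinearMap.toMatrix b b T := ⟨_, rfl⟩
  have hone : LinearMap.toMatrix b b (1 : Module.End (ZMod p) V) = 1 := by
    rw [Module.End.one_eq_id, LinearMap.toMatrix_id]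
  have h1 : M * M - a • M + r • (1 : Matrix (Fin 2) (Fin 2) (ZMod p)) = 0 := by
    have := congrArg (LinearMap.toMatrix b b) hT
    rw [map_add, map_sub, map_smul, map_smul, hone, Module.End.mul_eq_comp,
      LinearMap.toMatrix_comp b b b, ← hM, map_zero] at this
    exact this
  have h2 := matrix_sq_fin_two M
  have h3 : (M.trace - a) • M = (M.det - r) • (1 : Matrix (Fin 2) (Fin 2) (ZMod p)) := by
    rw [sub_smul, sub_smul]
    rw [h2] at h1
    rw [← sub_eq_zero, ← h1]
    abel
  have htr : M.trace = a := by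
    by_contra hne
    have hne' : M.trace - a ≠ 0 := sub_ne_zero.mpr hne
    have hMs : M = ((M.trace - a)⁻¹ * (M.det - r)) • (1 : Matrix (Fin 2) (Fin 2) (ZMod p)) := by
      rw [mul_smul, ← h3, smul_smul, inv_mul_cancel₀ hne', one_smul]
    apply hns ((M.trace - a)⁻¹ * (M.det - r))
    apply (LinearMap.toMatrix b b).injective
    rw [map_smul, hone, ← hM]
    exact hMs
  rw [htr, sub_self, zero_smul] at h3
  have h4 := congrFun (congrFun h3 0) 0
  simp only [Matrix.zero_apply, Matrix.smul_apply, Matrix.one_apply_eq, smul_eq_mul, mul_one] at h4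
  rw [← LinearMap.det_toMatrix b T, ← hM]
  exact (sub_eq_zero.mp h4.symm)

/-! ### unipotent elements -/

/-- a power of an element with `(x - 1)² = 0` has the same property. -/
theorem sub_one_sq_pow {R : Type*} [Ring R] {x : R} (hx : (x - 1) * (x - 1) = 0) (j : ℕ) :
    (x ^ j - 1) * (x ^ j - 1) = 0 := by
  calc (x ^ j - 1) * (x ^ j - 1)
      = ((∑ i ∈ Finset.range j, x ^ i) * (x - 1)) * ((x - 1) * ∑ i ∈ Finset.range j, x ^ i) := by
        rw [geom_sum_mul, mul_geom_sum]
    _ = (∑ i ∈ Finset.range j, x ^ i) * ((x - 1) * (x - 1)) * ∑ i ∈ Finset.range j, x ^ i := by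
        simp only [mul_assoc]
    _ = 0 := by rw [hx, mul_zero, zero_mul]

/-- in characteristic `p`, `(x - 1)² = 0` implies `x ^ p = 1`. -/
theorem pow_char_eq_one {R : Type*} [Ring R] [CharP R p] {x : R} (hx : (x - 1) * (x - 1) = 0) :
    x ^ p = 1 := by
  have h1 : (x - 1) ^ p = x ^ p - 1 := by
    rw [sub_pow_char_of_commute p (Commute.one_right x), one_pow]
  have h2 : (x - 1) ^ p = 0 := by
    have hp2 : 2 ≤ p := hp.out.two_le
    obtain ⟨k, hk⟩ := Nat.exists_eq_add_of_le hp2
    rw [hk, pow_add, pow_two, hx, zero_mul]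
  rw [h2] at h1
  exact (sub_eq_zero.mp h1.symm)

/-! ### Kolchin by counting -/

/-- a group of unipotent automorphisms of a non-zero finite-dimensional `𝔽_p`-space has a non-zero
common fixed vector. -/
theorem exists_fixed_of_unipotent [Module.Finite (ZMod p) V] [Nontrivial V]
    (ρ : G →* Module.End (ZMod p) V) (H : Subgroup G)
    (hH : ∀ h ∈ H, (ρ h - 1) * (ρ h - 1) = 0) :
    ∃ v : V, v ≠ 0 ∧ ∀ h ∈ H, ρ h v = v := by
  classical
  haveI : Finite V := Module.finite_of_finite (ZMod p)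
  haveI : CharP (Module.End (ZMod p) V) p :=
    charP_of_injective_algebraMap (algebraMap (ZMod p) (Module.End (ZMod p) V)).injective p
  let P : Subgroup (Module.End (ZMod p) V)ˣ := H.map ρ.toHomUnits
  have hP : IsPGroup p P := by
    rintro ⟨x, hx⟩
    obtain ⟨h, hh, rfl⟩ := hx
    refine ⟨1, ?_⟩
    apply Subtype.ext
    apply Units.ext
    simp only [pow_one, Subgroup.coe_pow, Units.val_pow_eq_pow_val, MonoidHom.coe_toHomUnits,
      Subgroup.coe_one, Units.val_one]
    exact pow_char_eq_one (hH h hh)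
  have hcard : p ∣ Nat.card V := by
    haveI : Fintype V := Fintype.ofFinite V
    rw [Nat.card_eq_fintype_card, Module.card_eq_pow_finrank (K := ZMod p) (V := V), ZMod.card]
    exact dvd_pow_self p (Module.finrank_pos (R := ZMod p) (M := V)).ne'
  have h0 : (0 : V) ∈ MulAction.fixedPoints P V := by
    rintro ⟨x, hx⟩
    obtain ⟨h, hh, rfl⟩ := hx
    change (ρ.toHomUnits h : Module.End (ZMod p) V) 0 = 0
    exact map_zero _
  obtain ⟨v, hv, hv0⟩ := hP.exists_fixed_point_of_prime_dvd_card_of_fixed_point V hcard h0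
  refine ⟨v, fun h => hv0 h.symm, fun h hh => ?_⟩
  exact hv ⟨ρ.toHomUnits h, Subgroup.mem_map_of_mem _ hh⟩

/-! ### the main abstract theorem -/

section main

variable (ρ : G →* Module.End (ZMod p) V)

/-- `ρ g` is a scalar. -/
def IsScalar (g : G) : Prop := ∃ s : ZMod p, ρ g = s • (1 : Module.End (ZMod p) V)

/-- The hypotheses of the abstract core. -/
structure Hyp (ω : G →* (ZMod p)ˣ) (H : Subgroup G) (𝔉 : Set G) (c : G) : Prop where
  hp2 : p ≠ 2
  hfin : finrank (ZMod p) V = 2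
  hirr : ∀ N : Submodule (ZMod p) V, (∀ g : G, ∀ x ∈ N, ρ g x ∈ N) → N = ⊥ ∨ N = ⊤
  hnormal : ∀ g : G, ∀ h ∈ H, g⁻¹ * h * g ∈ H
  hcomm : ∀ g₁ g₂ : G, g₁ * g₂ * (g₂ * g₁)⁻¹ ∈ H
  hquad : ∀ τ ∈ 𝔉, ∃ a : ZMod p,
    ρ τ * ρ τ - a • ρ τ + ((ω τ : (ZMod p)ˣ) : ZMod p) • (1 : Module.End (ZMod p) V) = 0
  hquadH : ∀ τ ∈ 𝔉, τ ∈ H → (ρ τ - 1) * (ρ τ - 1) = 0
  hdens : ∀ g : G, ∃ τ ∈ 𝔉, ∃ k j : ℕ, ρ τ = ρ g ^ k ∧ (ρ g ^ k) ^ j = ρ g ∧ ω τ = ω g ^ k ∧
    (ω g ^ k) ^ j = ω g ∧ (g ∈ H → τ ∈ H)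
  hc : c * c = 1
  hcω : ω c = -1

variable {ρ} {ω : G →* (ZMod p)ˣ} {H : Subgroup G} {𝔉 : Set G} {c : G}

namespace Hyp

variable (D : Hyp ρ ω H 𝔉 c)

include D

theorem finite : Module.Finite (ZMod p) V :=
  Module.finite_of_finrank_pos (by rw [D.hfin]; norm_num)

theorem nontrivial : Nontrivial V :=
  Module.nontrivial_of_finrank_pos (R := ZMod p) (by rw [D.hfin]; norm_num)

/-- Step 1: every element of `H` is unipotent. -/
theorem unipotent_of_mem {h : G} (hh : h ∈ H) : (ρ h - 1) * (ρ h - 1) = 0 := by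
  obtain ⟨τ, hτ, k, j, h1, h2, -, -, h5⟩ := D.hdens h
  have := sub_one_sq_pow (D.hquadH τ hτ (h5 hh)) j
  rwa [h1, h2] at this

/-- Step 2: `H` acts trivially. -/
theorem trivial_of_mem {h : G} (hh : h ∈ H) : ρ h = 1 := by
  haveI := D.finite
  haveI := D.nontrivial
  obtain ⟨v, hv0, hv⟩ := exists_fixed_of_unipotent ρ H (fun h hh => D.unipotent_of_mem hh)
  let F : Submodule (ZMod p) V :=
    { carrier := {w | ∀ h ∈ H, ρ h w = w}
      add_mem' := fun {a b} ha hb h hh => by rw [map_add, ha h hh, hb h hh]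
      zero_mem' := fun h _ => map_zero _
      smul_mem' := fun s a ha h hh => by rw [map_smul, ha h hh] }
  have hF : ∀ g : G, ∀ x ∈ F, ρ g x ∈ F := by
    intro g x hx h hh
    have h1 : ρ h (ρ g x) = ρ g (ρ (g⁻¹ * h * g) x) := by
      rw [← Module.End.mul_apply, ← Module.End.mul_apply, ← map_mul, ← map_mul]
      congr 2
      group
    rw [h1, hx _ (D.hnormal g h hh)]
  rcases D.hirr F hF with hbot | htop
  · exact absurd ((Submodule.eq_bot_iff F).mp hbot v hv) hv0
  · ext w
    have : w ∈ F := htop ▸ Submodule.mem_top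
    exact this h hh

/-- Step 3: the image is commutative. -/
theorem commute (g₁ g₂ : G) : ρ g₁ * ρ g₂ = ρ g₂ * ρ g₁ := by
  have h := D.trivial_of_mem (D.hcomm g₁ g₂)
  rw [map_mul, map_mul] at h
  have h2 : ρ ((g₂ * g₁)⁻¹) * ρ (g₂ * g₁) = 1 := by rw [← map_mul, inv_mul_cancel, map_one]
  calc ρ g₁ * ρ g₂ = ρ g₁ * ρ g₂ * (ρ ((g₂ * g₁)⁻¹) * ρ (g₂ * g₁)) := by rw [h2, mul_one]
    _ = (ρ g₁ * ρ g₂ * ρ ((g₂ * g₁)⁻¹)) * ρ (g₂ * g₁) := by simp only [mul_assoc]
    _ = ρ g₂ * ρ g₁ := by rw [h, one_mul, map_mul]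

/-- Step 4: `ρ c = ± 1`. -/
theorem rho_c : ρ c = 1 ∨ ρ c = -1 := by
  have hcc : ρ c * ρ c = 1 := by rw [← map_mul, D.hc, map_one]
  let N : Submodule (ZMod p) V := LinearMap.ker (ρ c - 1)
  have hN : ∀ g : G, ∀ x ∈ N, ρ g x ∈ N := by
    intro g x hx
    rw [LinearMap.mem_ker] at hx ⊢
    have h1 : (ρ c - 1) (ρ g x) = ρ g ((ρ c - 1) x) := by
      simp only [LinearMap.sub_apply, Module.End.one_apply, map_sub]
      rw [← Module.End.mul_apply, ← Module.End.mul_apply, D.commute c g]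
    rw [h1, hx, map_zero]
  have hmem : ∀ v : V, ρ c v + v ∈ N := by
    intro v
    rw [LinearMap.mem_ker]
    simp only [LinearMap.sub_apply, Module.End.one_apply, map_add]
    rw [← Module.End.mul_apply, hcc, Module.End.one_apply]
    abel
  rcases D.hirr N hN with hbot | htop
  · right
    ext v
    have := (Submodule.eq_bot_iff N).mp hbot _ (hmem v)
    rw [LinearMap.neg_apply, Module.End.one_apply]
    exact eq_neg_of_add_eq_zero_left this
  · left
    ext v
    have : v ∈ N := htop ▸ Submodule.mem_top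
    rw [LinearMap.mem_ker, LinearMap.sub_apply, sub_eq_zero] at this
    exact this

/-- Step 5b: some element is not scalar. -/
theorem exists_not_isScalar : ∃ g : G, ¬ IsScalar ρ g := by
  by_contra hall'
  have hall : ∀ g : G, IsScalar ρ g := fun g => by_contra fun h => hall' ⟨g, h⟩
  haveI := D.nontrivial
  obtain ⟨v, hv⟩ := exists_ne (0 : V)
  let N : Submodule (ZMod p) V := Submodule.span (ZMod p) {v}
  have hN : ∀ g : G, ∀ x ∈ N, ρ g x ∈ N := by
    intro g x hx
    obtain ⟨s, hs⟩ := hall g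
    rw [hs, LinearMap.smul_apply, Module.End.one_apply]
    exact N.smul_mem s hx
  rcases D.hirr N hN with hbot | htop
  · exact hv ((Submodule.span_singleton_eq_bot).mp hbot)
  · have h1 : finrank (ZMod p) N = 1 := finrank_span_singleton hv
    rw [htop, finrank_top, D.hfin] at h1
    norm_num at h1

theorem isScalar_pow {g : G} (hg : IsScalar ρ g) (j : ℕ) :
    ∃ s : ZMod p, ρ g ^ j = s • (1 : Module.End (ZMod p) V) := by
  obtain ⟨s, hs⟩ := hg
  exact ⟨s ^ j, by rw [hs, smul_pow, one_pow]⟩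

/-- Step 5a: `det ρ g = ω g` for non-scalar `g`. -/
theorem det_eq_of_not_isScalar {g : G} (hg : ¬ IsScalar ρ g) :
    LinearMap.det (ρ g) = ((ω g : (ZMod p)ˣ) : ZMod p) := by
  obtain ⟨τ, hτ, k, j, h1, h2, h3, h4, -⟩ := D.hdens g
  obtain ⟨a, ha⟩ := D.hquad τ hτ
  have hns : ∀ s : ZMod p, ρ τ ≠ s • (1 : Module.End (ZMod p) V) := by
    intro s hs
    apply hg
    refine ⟨s ^ j, ?_⟩
    rw [← h2, ← h1, hs, smul_pow, one_pow]
  have hdet := det_eq_of_quadratic D.hfin (ρ τ) a _ ha hns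
  calc LinearMap.det (ρ g) = LinearMap.det ((ρ τ) ^ j) := by rw [h1, h2]
    _ = (LinearMap.det (ρ τ)) ^ j := map_pow _ _ _
    _ = (((ω τ : (ZMod p)ˣ) : ZMod p)) ^ j := by rw [hdet]
    _ = ((ω g : (ZMod p)ˣ) : ZMod p) := by
        rw [h3, ← Units.val_pow_eq_pow_val, h4]

/-- Step 5c: `det ρ g = ω g` for all `g`. -/
theorem det_eq (g : G) : LinearMap.det (ρ g) = ((ω g : (ZMod p)ˣ) : ZMod p) := by
  by_cases hg : IsScalar ρ g
  · obtain ⟨g₀, hg₀⟩ := D.exists_not_isScalar
    have hgg₀ : ¬ IsScalar ρ (g * g₀) := by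
      rintro ⟨t, ht⟩
      obtain ⟨s, hs⟩ := hg
      apply hg₀
      have hs0 : s ≠ 0 := by
        rintro rfl
        rw [zero_smul] at hs
        have h1 : ρ g * ρ g⁻¹ = 1 := by rw [← map_mul, mul_inv_cancel, map_one]
        rw [hs, zero_mul] at h1
        haveI := D.nontrivial
        have := congrArg (fun f : Module.End (ZMod p) V => f) h1
        obtain ⟨v, hv⟩ := exists_ne (0 : V)
        exact hv (by simpa using (LinearMap.congr_fun h1 v).symm)
      refine ⟨s⁻¹ * t, ?_⟩
      rw [map_mul, hs] at ht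
      rw [mul_smul, ← ht, smul_mul_assoc, one_mul, smul_smul, inv_mul_cancel₀ hs0, one_smul]
    have h1 := D.det_eq_of_not_isScalar hgg₀
    have h2 := D.det_eq_of_not_isScalar hg₀
    rw [map_mul, map_mul, map_mul, Units.val_mul, h2] at h1
    exact mul_right_cancel₀ (Units.ne_zero _) h1
  · exact D.det_eq_of_not_isScalar hg

/-- **The abstract core**: the hypotheses are contradictory. -/
theorem contradiction : False := by
  have h1 := D.det_eq c
  rw [D.hcω] at h1
  have h2 : LinearMap.det (ρ c) = 1 := by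
    rcases D.rho_c with h | h
    · rw [h, map_one]
    · rw [h, show (-1 : Module.End (ZMod p) V) = (-1 : ZMod p) • (1 : Module.End (ZMod p) V) by
        rw [neg_smul, one_smul], LinearMap.det_smul, D.hfin, map_one]
      norm_num
  rw [h2] at h1
  have h3 : (2 : ZMod p) = 0 := by
    have : (1 : ZMod p) = -1 := by simpa using h1
    linear_combination this
  have h4 : ((2 : ℕ) : ZMod p) = 0 := by exact_mod_cast h3
  rw [ZMod.natCast_eq_zero_iff] at h4
  exact D.hp2 ((Nat.prime_dvd_prime_iff_eq hp.out Nat.prime_two).mp h4)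

end Hyp

end main

end Fermat.Agent.S41.NonEis.Core
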