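import Mathlib
import Fermat.Prelude.Def_FLTPrelim_Ramification
import Fermat.Prelude.Def_GaloisRep_ComplexConjugation
import Fermat.Agent.S30.Algebra.Cyclotomic

/-!
# PROJECT R (S41), slice NonEis: roots of unity in `ℚbar`

* Frobenius lifts at `ℓ ∤ M` raise `M`-th roots of unity to the `ℓ`-th power (`frob_root`);
* the stabiliser `stab ζ` of a primitive `M`-th root of unity is normal with abelian quotient;
* the mod `p` cyclotomic character `omega p : G_ℚ →* (ZMod p)ˣ` and its values at Frobenius lifts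
  (`omega_frob`), on `stab ζ` (`omega_of_mem_stab`, `p ∣ M`) and at complex conjugation
  (`omega_complexConjugation`).
-/

set_option autoImplicit false
set_option linter.unusedSectionVars false
set_option linter.style.haveILetI false

namespace Fermat.Agent.S41.NonEis.Roots

open IsLocalRing
open Fermat.Agent.S30.Algebra.Cyclotomic (Qbar GQ mem_of_pow_eq_one mem_nonunits_iff_residue
  isFrobeniusAt_apply toRingAut toRingAut_apply)

/-! ### roots of unity of order prime to the residue characteristic -/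

/-- If `A` lies over `q ∤ M`, then `M` is nonzero in the residue field of `A`. -/
theorem residue_natCast_ne_zero (A : ValuationSubring Qbar) {q : ℕ} (hq : q.Prime)
    (hA : A.LiesOverPrime q) {M : ℕ} (hM : ¬ q ∣ M) :
    ((M : ℕ) : IsLocalRing.ResidueField A) ≠ 0 := by
  intro hp0
  have hq0 : ((q : ℕ) : IsLocalRing.ResidueField A) = 0 := by
    have h1 : ((q : ℕ) : Qbar) ∈ A.nonunits := hA
    rw [mem_nonunits_iff_residue A _ (natCast_mem A q)] at h1
    have h2 : (⟨((q : ℕ) : Qbar), natCast_mem A q⟩ : A) = ((q : ℕ) : A) := rfl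
    rw [h2, map_natCast] at h1
    exact h1
  have hcop : Nat.Coprime M q := ((Nat.Prime.coprime_iff_not_dvd hq).2 hM).symm
  have hbez : ((M : ℤ) * Nat.gcdA M q + q * Nat.gcdB M q : ℤ) = 1 := by
    have := Nat.gcd_eq_gcd_ab M q
    rw [hcop.gcd_eq_one] at this
    exact_mod_cast this.symm
  have := congrArg (Int.cast : ℤ → IsLocalRing.ResidueField A) hbez
  push_cast at this
  rw [hp0, hq0, zero_mul, zero_mul, add_zero] at this
  exact zero_ne_one this

/-- For `A` over `q ∤ M`, a nontrivial `M`-th root of unity is not congruent to `1` modulo the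
maximal ideal of `A`. -/
theorem sub_one_not_mem_nonunits (A : ValuationSubring Qbar) {q : ℕ} (hq : q.Prime)
    (hA : A.LiesOverPrime q) {M : ℕ} (hM : ¬ q ∣ M) {μ : Qbar} (hμ : μ ^ M = 1) (hμ1 : μ ≠ 1) :
    μ - 1 ∉ A.nonunits := by
  intro hmem
  have hN : M ≠ 0 := by
    rintro rfl
    exact hM (dvd_zero q)
  have hμA : μ ∈ A := mem_of_pow_eq_one A hN hμ
  have h1A : μ - 1 ∈ A := A.sub_mem hμA A.one_mem
  rw [mem_nonunits_iff_residue A _ h1A] at hmem
  have hres : IsLocalRing.residue A ⟨μ, hμA⟩ = 1 := by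
    have : (⟨μ - 1, h1A⟩ : A) = ⟨μ, hμA⟩ - 1 := rfl
    rw [this, map_sub, map_one, sub_eq_zero] at hmem
    exact hmem
  have hsum : ∑ i ∈ Finset.range M, μ ^ i = 0 := by
    have h := geom_sum_mul μ M
    rw [hμ, sub_self] at h
    exact (mul_eq_zero.1 h).resolve_right (sub_ne_zero.2 hμ1)
  have hsumA : ∑ i ∈ Finset.range M, (⟨μ, hμA⟩ : A) ^ i = 0 := by
    apply Subtype.ext
    push_cast
    exact hsum
  have := congrArg (IsLocalRing.residue A) hsumA
  rw [map_sum, map_zero] at this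
  simp only [map_pow, hres, one_pow, Finset.sum_const, Finset.card_range, nsmul_eq_mul,
    mul_one] at this
  exact residue_natCast_ne_zero A hq hA hM this

/-- Two `M`-th roots of unity which are congruent modulo the maximal ideal of `A` (over
`q ∤ M`) are equal. -/
theorem eq_of_sub_mem_nonunits (A : ValuationSubring Qbar) {q : ℕ} (hq : q.Prime)
    (hA : A.LiesOverPrime q) {M : ℕ} (hM : ¬ q ∣ M) {x y : Qbar} (hx : x ^ M = 1)
    (hy : y ^ M = 1) (h : x - y ∈ A.nonunits) : x = y := by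
  by_contra hne
  have hN : M ≠ 0 := by
    rintro rfl
    exact hM (dvd_zero q)
  have hy0 : y ≠ 0 := by
    rintro rfl
    rw [zero_pow hN] at hy
    exact zero_ne_one hy
  have hμ : (x * y⁻¹) ^ M = 1 := by rw [mul_pow, hx, inv_pow, hy, inv_one, mul_one]
  have hμ1 : x * y⁻¹ ≠ 1 := by
    intro h1
    apply hne
    have := congrArg (· * y) h1
    simpa [mul_assoc, inv_mul_cancel₀ hy0] using this
  apply sub_one_not_mem_nonunits A hq hA hM hμ hμ1
  have hyinv : y⁻¹ ∈ A := mem_of_pow_eq_one A hN (by rw [inv_pow, hy, inv_one])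
  have : x * y⁻¹ - 1 = (x - y) * y⁻¹ := by rw [sub_mul, mul_inv_cancel₀ hy0]
  rw [this]
  rw [A.mem_nonunits_iff] at h ⊢
  rw [← A.valuation_le_one_iff] at hyinv
  rw [map_mul]
  exact mul_lt_one_of_lt_of_le h hyinv

/-- A Frobenius lift at `ℓ ∤ M` raises the `M`-th roots of unity to the `ℓ`-th power. -/
theorem frob_root {ℓ : ℕ} (hℓ : ℓ.Prime) (A : ValuationSubring Qbar) (hA : A.LiesOverPrime ℓ)
    (τ : GQ) (hτ : A.IsFrobeniusAt τ ℓ) {M : ℕ} (hM : ¬ ℓ ∣ M) {t : Qbar} (ht : t ^ M = 1) :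
    τ t = t ^ ℓ := by
  have hN : M ≠ 0 := by
    rintro rfl
    exact hM (dvd_zero ℓ)
  have htA : t ∈ A := mem_of_pow_eq_one A hN ht
  refine eq_of_sub_mem_nonunits A hℓ hA hM ?_ ?_ (isFrobeniusAt_apply hτ t htA)
  · rw [← map_pow, ht, map_one]
  · rw [← pow_mul, mul_comm, pow_mul, ht, one_pow]

/-! ### the stabiliser of a primitive root of unity -/

section stab

variable {M : ℕ} [NeZero M] {ζ : Qbar} (hζ : IsPrimitiveRoot ζ M)

include hζ

/-- every Galois conjugate of `ζ` is a power of `ζ`. -/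
theorem exists_pow_eq (σ : GQ) : ∃ a : ℕ, σ ζ = ζ ^ a := by
  have h1 : (σ ζ) ^ M = 1 := by rw [← map_pow, hζ.pow_eq_one, map_one]
  obtain ⟨i, -, hi⟩ := hζ.eq_pow_of_pow_eq_one h1
  exact ⟨i, hi.symm⟩

/-- the images of `ζ` under two Galois automorphisms, in either order. -/
theorem comm_apply (σ τ : GQ) : σ (τ ζ) = τ (σ ζ) := by
  obtain ⟨a, ha⟩ := exists_pow_eq hζ σ
  obtain ⟨b, hb⟩ := exists_pow_eq hζ τ
  rw [ha, hb, map_pow, map_pow, ha, hb, ← pow_mul, ← pow_mul, mul_comm]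

/-- the subgroup of `G_ℚ` fixing `ζ`. -/
def stab (ζ : Qbar) : Subgroup GQ where
  carrier := {σ | σ ζ = ζ}
  mul_mem' := fun {a b} ha hb => by
    change a (b ζ) = ζ
    rw [hb, ha]
  one_mem' := rfl
  inv_mem' := fun {a} ha => by
    change a⁻¹ ζ = ζ
    have : a⁻¹ (a ζ) = ζ := by
      change (a⁻¹ * a) ζ = ζ
      rw [inv_mul_cancel]; rfl
    rwa [ha] at this

omit hζ in
theorem mem_stab {ζ : Qbar} {σ : GQ} : σ ∈ stab ζ ↔ σ ζ = ζ := Iff.rfl

theorem stab_normal (g h : GQ) (hh : h ∈ stab ζ) : g⁻¹ * h * g ∈ stab ζ := by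
  rw [mem_stab] at hh ⊢
  change g⁻¹ (h (g ζ)) = ζ
  obtain ⟨a, ha⟩ := exists_pow_eq hζ g
  rw [ha, map_pow, hh, ← ha]
  change (g⁻¹ * g) ζ = ζ
  rw [inv_mul_cancel]; rfl

theorem stab_comm (g₁ g₂ : GQ) : g₁ * g₂ * (g₂ * g₁)⁻¹ ∈ stab ζ := by
  rw [mem_stab]
  set ξ := (g₂ * g₁)⁻¹ ζ with hξ
  have h1 : (g₂ * g₁) ξ = ζ := by
    rw [hξ]
    change ((g₂ * g₁) * (g₂ * g₁)⁻¹) ζ = ζ
    rw [mul_inv_cancel]; rfl
  have hξM : ξ ^ M = 1 := by rw [hξ, ← map_pow, hζ.pow_eq_one, map_one]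
  obtain ⟨e, -, he⟩ := hζ.eq_pow_of_pow_eq_one hξM
  change g₁ (g₂ ξ) = ζ
  rw [← he, map_pow, map_pow, comm_apply hζ g₁ g₂, ← map_pow, ← map_pow, he]
  exact h1

end stab

/-! ### the mod `p` cyclotomic character -/

section omega

variable (p : ℕ) [Fact p.Prime]

local instance neZeroOfFact : NeZero p := ⟨(Fact.out : p.Prime).ne_zero⟩

/-- the mod `p` cyclotomic character of `G_ℚ`. -/
noncomputable def omega : GQ →* (ZMod p)ˣ :=
  (modularCyclotomicCharacter Qbar
    (HasEnoughRootsOfUnity.natCard_rootsOfUnity Qbar p)).comp toRingAut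

theorem omega_spec (σ : GQ) {t : Qbar} (ht : t ^ p = 1) :
    σ t = t ^ ((omega p σ : (ZMod p)ˣ) : ZMod p).val := by
  have ht0 : t ≠ 0 := by
    rintro rfl
    rw [zero_pow (Fact.out : p.Prime).ne_zero] at ht
    exact zero_ne_one ht
  have hmem : Units.mk0 t ht0 ∈ rootsOfUnity p Qbar := by
    rw [mem_rootsOfUnity]
    apply Units.ext
    rw [Units.val_pow_eq_pow_val, Units.val_mk0, ht, Units.val_one]
  have := modularCyclotomicCharacter.spec Qbar
    (HasEnoughRootsOfUnity.natCard_rootsOfUnity Qbar p) (toRingAut σ) hmem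
  simpa [omega] using this

/-- `ω σ` is determined by the action of `σ` on the `p`-th roots of unity. -/
theorem omega_eq_of (σ : GQ) (u : (ZMod p)ˣ)
    (h : ∀ t : Qbar, t ^ p = 1 → σ t = t ^ ((u : ZMod p)).val) : omega p σ = u := by
  have := modularCyclotomicCharacter.unique Qbar
    (HasEnoughRootsOfUnity.natCard_rootsOfUnity Qbar p) (toRingAut σ) (c := (u : ZMod p))
    (fun t ht => by
      have ht' : (t : Qbar) ^ p = 1 := by
        have := (mem_rootsOfUnity p t).1 ht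
        rw [← Units.val_pow_eq_pow_val, this, Units.val_one]
      rw [toRingAut_apply]
      exact h _ ht')
  exact (Units.ext this).symm

/-- two automorphisms agreeing on the `p`-th roots of unity have the same `ω`. -/
theorem omega_congr (σ τ : GQ) (h : ∀ t : Qbar, t ^ p = 1 → σ t = τ t) :
    omega p σ = omega p τ :=
  omega_eq_of p σ _ (fun t ht => by rw [h t ht, omega_spec p τ ht])

/-- `ω τ = ℓ` for a Frobenius lift at `ℓ ≠ p`. -/
theorem omega_frob {ℓ : ℕ} (hℓ : ℓ.Prime) (hℓp : ℓ ≠ p) (A : ValuationSubring Qbar)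
    (hA : A.LiesOverPrime ℓ) (τ : GQ) (hτ : A.IsFrobeniusAt τ ℓ) :
    ((omega p τ : (ZMod p)ˣ) : ZMod p) = (ℓ : ZMod p) := by
  have hndvd : ¬ ℓ ∣ p := fun h =>
    hℓp ((Nat.prime_dvd_prime_iff_eq hℓ (Fact.out : p.Prime)).mp h)
  have hu : IsUnit ((ℓ : ℕ) : ZMod p) := by
    rw [ZMod.isUnit_iff_coprime]
    exact (Nat.coprime_primes hℓ (Fact.out : p.Prime)).mpr hℓp
  have := omega_eq_of p τ hu.unit (fun t ht => by
    rw [IsUnit.unit_spec, frob_root hℓ A hA τ hτ hndvd ht, ZMod.val_natCast]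
    exact pow_eq_pow_mod ℓ ht)
  rw [this, IsUnit.unit_spec]

/-- `ω σ = 1` when `σ` fixes a primitive `M`-th root of unity, `p ∣ M`. -/
theorem omega_of_mem_stab {M : ℕ} (hM : 0 < M) {ζ : Qbar} (hζ : IsPrimitiveRoot ζ M)
    (hpM : p ∣ M) {σ : GQ} (hσ : σ ∈ stab ζ) : omega p σ = 1 := by
  refine omega_eq_of p σ 1 (fun t ht => ?_)
  obtain ⟨d, rfl⟩ := hpM
  have hpd : 0 < p * d := hM
  haveI : NeZero (p * d) := ⟨hpd.ne'⟩
  have hζp : IsPrimitiveRoot (ζ ^ d) p :=
    hζ.pow hpd (by ring)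
  obtain ⟨i, -, hi⟩ := hζp.eq_pow_of_pow_eq_one ht
  rw [Units.val_one, ZMod.val_one, pow_one, ← hi, map_pow, map_pow, mem_stab.mp hσ]

/-- `ω(c) = -1` for complex conjugation. -/
theorem omega_complexConjugation : omega p complexConjugation = -1 := by
  refine omega_eq_of p _ (-1) (fun t ht => ?_)
  have hp0 : p ≠ 0 := (Fact.out : p.Prime).ne_zero
  have ht0 : t ≠ 0 := by
    rintro rfl
    rw [zero_pow hp0] at ht
    exact zero_ne_one ht
  have hp1 : 1 < p := (Fact.out : p.Prime).one_lt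
  haveI : Fact (1 < p) := ⟨hp1⟩
  have hval : ((-1 : (ZMod p)ˣ) : ZMod p).val = p - 1 := by
    rw [Units.val_neg, Units.val_one, ZMod.neg_val, if_neg one_ne_zero, ZMod.val_one]
  rw [hval]
  have hinv : t ^ (p - 1) = t⁻¹ := by
    apply eq_inv_of_mul_eq_one_left
    rw [← pow_succ, Nat.sub_add_cancel hp1.le, ht]
  rw [hinv]
  apply complexEmbedding.toRingHom.injective
  change complexEmbedding (complexConjugation t) = complexEmbedding t⁻¹
  rw [complexEmbedding_complexConjugation, map_inv₀]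
  have hz : (complexEmbedding t) ^ p = 1 := by rw [← map_pow, ht, map_one]
  exact (Complex.inv_eq_conj (Complex.norm_eq_one_of_pow_eq_one hz hp0)).symm

end omega

end Fermat.Agent.S41.NonEis.Roots
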