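import Mathlib
import Fermat.Agent.S30.Density.Bridge
import Fermat.Agent.S58.ESide
import Fermat.Agent.S58.HW.Instance
import Fermat.Agent.S41.NonEis.Core
import Fermat.Agent.S41.NonEis.Roots

/-!
# PROJECT R (S41), slice NonEis: the instantiation at `E[p]`

`W : WeierstrassCurve ℤ` with `Δ ≠ 0`, `E = W ⊗ ℚ`, `p` an odd prime with `E[p]` irreducible.
For every `M > 0` and every finite set `S` of primes there is a prime `r ∉ S`, `r ≡ 1 mod M`, good
for `W`, with `a_r(W) ≢ r + 1 mod p` (`exists_prime_ap_ne_model`).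
-/

set_option autoImplicit false
set_option linter.unusedSectionVars false
set_option linter.style.haveILetI false

noncomputable section

namespace Fermat.Agent.S41.NonEis.Inst

open WeierstrassCurve WeierstrassCurve.Affine
open scoped WeierstrassCurve.Affine
open Fermat.Agent.S58.TateE (WQ Pts)
open Fermat.Agent.S41.NonEis.Roots
open Fermat.Agent.S30.Algebra.Cyclotomic (Qbar GQ)

variable (W : WeierstrassCurve ℤ) (p : ℕ) [Fact p.Prime]

/-- `E[p]` as a `ZMod p`-module with `G_ℚ`-action (Prelude instances). -/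
abbrev Vp : Type := Submodule.torsionBy ℤ (Pts W) p

/-- the mod `p` representation. -/
def rho : GQ →* Module.End (ZMod p) (Vp W p) where
  toFun σ := (DistribSMul.toAddMonoidHom (Vp W p) σ).toZModLinearMap p
  map_one' := by
    ext x
    exact congrArg Subtype.val (one_smul GQ x)
  map_mul' σ τ := by
    ext x
    exact congrArg Subtype.val (mul_smul σ τ x)

theorem rho_apply (σ : GQ) (v : Vp W p) : rho W p σ v = σ • v := rfl

theorem coe_smul_zmod (a : ℤ) (v : Vp W p) :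
    (((a : ZMod p) • v : Vp W p) : Pts W) = a • (v : Pts W) := by
  rw [Int.cast_smul_eq_zsmul]
  rfl

/-- Hasse–Weil (S58) as an identity in `End E[p]`. -/
theorem rho_quad {ℓ : ℕ} (hℓ : ℓ.Prime) (hgood : W.IsGoodPrimeFor ℓ) (hℓp : ℓ ≠ p)
    (A : ValuationSubring Qbar) (hA : A.LiesOverPrime ℓ) (τ : GQ) (hτ : A.IsFrobeniusAt τ ℓ) :
    rho W p τ * rho W p τ - ((W.apOfModel ℓ : ℤ) : ZMod p) • rho W p τ +
      ((ℓ : ℕ) : ZMod p) • (1 : Module.End (ZMod p) (Vp W p)) = 0 := by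
  ext v
  have hcop : p.Coprime ℓ := (Nat.coprime_primes (Fact.out : p.Prime) hℓ).mpr (Ne.symm hℓp)
  have hP : p • (v : Pts W) = 0 := by
    have := v.2
    rw [Submodule.mem_torsionBy_iff] at this
    rw [← natCast_zsmul]
    exact this
  have h := Fermat.Agent.S58.ESide.frob_of_HWProp
    (fun _ _ _ _ L _ _ _ T => Fermat.Agent.S58.HW.Instance.hasse_weil L T)
    W ℓ hℓ hgood A hA τ hτ p hcop (v : Pts W) hP
  simp only [LinearMap.add_apply, LinearMap.sub_apply, Module.End.mul_apply,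
    LinearMap.smul_apply, Module.End.one_apply, LinearMap.zero_apply, rho_apply]
  rw [← Int.cast_natCast (R := ZMod p) ℓ]
  simp only [Submodule.coe_add, Submodule.coe_sub, coe_smul_zmod, ZeroMemClass.coe_zero,
    natCast_zsmul]
  exact h

/-! ### the field of definition of `E[p]` -/

/-- the `x`-coordinate (`0` at infinity). -/
def xc : Pts W → Qbar
  | .zero => 0
  | .some x _ _ => x

/-- the `y`-coordinate (`0` at infinity). -/
def yc : Pts W → Qbar
  | .zero => 0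
  | .some _ y _ => y

theorem smul_eq_of_coords (σ₁ σ₂ : GQ) (P : Pts W) (hx : σ₁ (xc W P) = σ₂ (xc W P))
    (hy : σ₁ (yc W P) = σ₂ (yc W P)) : σ₁ • P = σ₂ • P := by
  rcases P with _ | ⟨x, y, h⟩
  · rfl
  · simp only [xc, yc] at hx hy
    rw [Point.algEquiv_smul_def, Point.algEquiv_smul_def, Point.map_some, Point.map_some,
      Point.some.injEq]
    exact ⟨hx, hy⟩

/-! ### cardinality -/

variable {W}

theorem card_Vp (hΔ : W.Δ ≠ 0) : Nat.card (Vp W p) = p ^ 2 :=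
  Fermat.Agent.S58.ESide.card_of_disc_ne_zero W hΔ p (Fact.out : p.Prime).pos

theorem finite_Vp (hΔ : W.Δ ≠ 0) : Finite (Vp W p) :=
  Nat.finite_of_card_ne_zero (by
    rw [card_Vp p hΔ]
    exact pow_ne_zero _ (Fact.out : p.Prime).ne_zero)

theorem finrank_Vp (hΔ : W.Δ ≠ 0) : Module.finrank (ZMod p) (Vp W p) = 2 := by
  haveI := finite_Vp p hΔ
  haveI : Fintype (Vp W p) := Fintype.ofFinite _
  have h1 := Module.card_eq_pow_finrank (K := ZMod p) (V := Vp W p)
  rw [ZMod.card, ← Nat.card_eq_fintype_card, card_Vp p hΔ] at h1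
  exact (Nat.pow_right_injective (Fact.out : p.Prime).two_le h1).symm

variable (W)

/-! ### the density step -/

/-- the finite set of coordinates of `E[p]`, together with `ζ`. -/
def coords (ζ : Qbar) : Set Qbar :=
  (Set.range fun v : Vp W p => xc W (v : Pts W)) ∪ (Set.range fun v : Vp W p => yc W (v : Pts W))
    ∪ {ζ}

/-- the field generated by the coordinates of `E[p]` and `ζ`. -/
def fieldL (ζ : Qbar) : IntermediateField ℚ Qbar := IntermediateField.adjoin ℚ (coords W p ζ)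

variable {W}

theorem finiteDimensional_fieldL (hΔ : W.Δ ≠ 0) (ζ : Qbar) :
    FiniteDimensional ℚ (fieldL W p ζ) := by
  haveI := finite_Vp p hΔ
  haveI : Finite (coords W p ζ) := by
    apply Set.Finite.to_subtype
    exact ((Set.finite_range _).union (Set.finite_range _)).union (Set.finite_singleton ζ)
  exact IntermediateField.finiteDimensional_adjoin
    (fun x _ => (Algebra.IsIntegral.isIntegral x))

variable (W)

theorem zeta_mem_fieldL (ζ : Qbar) : ζ ∈ fieldL W p ζ :=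
  IntermediateField.subset_adjoin ℚ _ (Or.inr rfl)

theorem xc_mem_fieldL (ζ : Qbar) (v : Vp W p) : xc W (v : Pts W) ∈ fieldL W p ζ :=
  IntermediateField.subset_adjoin ℚ _ (Or.inl (Or.inl ⟨v, rfl⟩))

theorem yc_mem_fieldL (ζ : Qbar) (v : Vp W p) : yc W (v : Pts W) ∈ fieldL W p ζ :=
  IntermediateField.subset_adjoin ℚ _ (Or.inl (Or.inr ⟨v, rfl⟩))

/-- two automorphisms agreeing on `fieldL` act in the same way on `E[p]`. -/
theorem rho_eq_of_eqOn (ζ : Qbar) (σ₁ σ₂ : GQ) (h : ∀ x ∈ fieldL W p ζ, σ₁ x = σ₂ x) :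
    rho W p σ₁ = rho W p σ₂ := by
  ext v
  rw [rho_apply, rho_apply]
  exact smul_eq_of_coords W σ₁ σ₂ (v : Pts W) (h _ (xc_mem_fieldL W p ζ v))
    (h _ (yc_mem_fieldL W p ζ v))

theorem root_mem_fieldL {M : ℕ} (hM : 0 < M) {ζ : Qbar} (hζ : IsPrimitiveRoot ζ M)
    (hpM : p ∣ M) {t : Qbar} (ht : t ^ p = 1) : t ∈ fieldL W p ζ := by
  obtain ⟨d, rfl⟩ := hpM
  haveI : NeZero (p * d) := ⟨hM.ne'⟩
  haveI : NeZero p := ⟨(Fact.out : p.Prime).ne_zero⟩
  have hζp : IsPrimitiveRoot (ζ ^ d) p := hζ.pow hM (by ring)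
  obtain ⟨i, -, hi⟩ := hζp.eq_pow_of_pow_eq_one ht
  rw [← hi]
  exact pow_mem (pow_mem (zeta_mem_fieldL W p ζ) d) i

/-- the set of Frobenius lifts at primes outside `S'`. -/
def frobSet (S' : Finset ℕ) : Set GQ :=
  {τ | ∃ (ℓ : ℕ) (A : ValuationSubring Qbar), ℓ.Prime ∧ ℓ ∉ S' ∧ A.LiesOverPrime ℓ ∧
    A.IsFrobeniusAt τ ℓ}

/-- the bad set: `S`, `p`, the primes dividing `M`, the primes dividing `Δ`. -/
def badSet (S : Finset ℕ) (M : ℕ) : Finset ℕ :=
  S ∪ {p} ∪ M.primeFactors ∪ W.Δ.natAbs.primeFactors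

variable {W}

theorem not_mem_badSet {S : Finset ℕ} {M : ℕ} (hM : 0 < M) (hΔ : W.Δ ≠ 0) {ℓ : ℕ} (hℓ : ℓ.Prime)
    (h : ℓ ∉ badSet W p S M) : ℓ ∉ S ∧ ℓ ≠ p ∧ ¬ ℓ ∣ M ∧ W.IsGoodPrimeFor ℓ := by
  simp only [badSet, Finset.mem_union, Finset.mem_singleton, not_or] at h
  obtain ⟨⟨⟨h1, h2⟩, h3⟩, h4⟩ := h
  refine ⟨h1, h2, fun hd => h3 ?_, fun hd => h4 ?_⟩
  · exact Nat.mem_primeFactors.mpr ⟨hℓ, hd, hM.ne'⟩
  · refine Nat.mem_primeFactors.mpr ⟨hℓ, ?_, Int.natAbs_ne_zero.mpr hΔ⟩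
    exact Int.natCast_dvd.mp hd

/-- **Non-Eisenstein from irreducibility**, for the model `W` itself. -/
theorem exists_prime_ap_ne_model (hΔ : W.Δ ≠ 0) (hp2 : p ≠ 2)
    (hirr : Point.GaloisRepIsIrreducible (K := Qbar) ℚ (WQ W) p)
    (M : ℕ) (hM : 0 < M) (S : Finset ℕ) :
    ∃ r : ℕ, r.Prime ∧ r ∉ S ∧ r ≡ 1 [MOD M] ∧ W.IsGoodPrimeFor r ∧
      ¬ (p : ℤ) ∣ W.apOfModel r - ((r : ℤ) + 1) := by
  by_contra hcon
  have hall : ∀ r : ℕ, r.Prime → r ∉ S → r ≡ 1 [MOD M] → W.IsGoodPrimeFor r →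
      (p : ℤ) ∣ W.apOfModel r - ((r : ℤ) + 1) := by
    intro r h1 h2 h3 h4
    by_contra h5
    exact hcon ⟨r, h1, h2, h3, h4, h5⟩
  -- enlarge `M`
  set M' := p * M with hM'
  have hM'pos : 0 < M' := Nat.mul_pos (Fact.out : p.Prime).pos hM
  haveI : NeZero M' := ⟨hM'pos.ne'⟩
  obtain ⟨ζ, hζ⟩ := HasEnoughRootsOfUnity.exists_primitiveRoot Qbar M'
  have hpM' : p ∣ M' := Dvd.intro _ rfl
  set S' := badSet W p S M' with hS'
  haveI := finiteDimensional_fieldL p hΔ ζ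
  have hD : Core.Hyp (rho W p) (omega p) (stab ζ) (frobSet S') complexConjugation := by
    refine
      { hp2 := hp2
        hfin := finrank_Vp p hΔ
        hirr := fun N hN => hirr.2 N (fun σ x hx => hN σ x hx)
        hnormal := fun g h hh => stab_normal hζ g h hh
        hcomm := fun g₁ g₂ => stab_comm hζ g₁ g₂
        hquad := ?_
        hquadH := ?_
        hdens := ?_
        hc := complexConjugation_mul_self
        hcω := omega_complexConjugation p }
    · rintro τ ⟨ℓ, A, hℓ, hℓS, hA, hτ⟩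
      obtain ⟨-, hℓp, -, hgood⟩ := not_mem_badSet p hM'pos hΔ hℓ hℓS
      refine ⟨((W.apOfModel ℓ : ℤ) : ZMod p), ?_⟩
      rw [omega_frob p hℓ hℓp A hA τ hτ]
      exact rho_quad W p hℓ hgood hℓp A hA τ hτ
    · rintro τ ⟨ℓ, A, hℓ, hℓS, hA, hτ⟩ hτH
      obtain ⟨hℓnS, hℓp, hℓM, hgood⟩ := not_mem_badSet p hM'pos hΔ hℓ hℓS
      -- `ℓ ≡ 1 mod M'`
      have h1 : ζ ^ ℓ = ζ := by
        rw [← frob_root hℓ A hA τ hτ hℓM hζ.pow_eq_one]
        exact mem_stab.mp hτH
      have h2 : ζ ^ (ℓ - 1) = 1 := by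
        have hζ0 : ζ ≠ 0 := hζ.ne_zero hM'pos.ne'
        have : ζ ^ (ℓ - 1) * ζ = 1 * ζ := by
          rw [← pow_succ, Nat.sub_add_cancel hℓ.one_lt.le, h1, one_mul]
        exact mul_right_cancel₀ hζ0 this
      have h3 : M' ∣ ℓ - 1 := (hζ.pow_eq_one_iff_dvd _).mp h2
      have h4 : ℓ ≡ 1 [MOD M'] := ((Nat.modEq_iff_dvd' hℓ.one_lt.le).mpr h3).symm
      have h5 : ℓ ≡ 1 [MOD M] := h4.of_mul_left p
      have h6 : ℓ ≡ 1 [MOD p] := h4.of_mul_right M
      have h7 := hall ℓ hℓ hℓnS h5 hgood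
      have hq := rho_quad W p hℓ hgood hℓp A hA τ hτ
      have hℓ1 : ((ℓ : ℕ) : ZMod p) = 1 := by
        have := (ZMod.natCast_eq_natCast_iff ℓ 1 p).mpr h6
        simpa using this
      have ha : ((W.apOfModel ℓ : ℤ) : ZMod p) = 2 := by
        have := (ZMod.intCast_zmod_eq_zero_iff_dvd _ p).mpr h7
        push_cast at this
        rw [hℓ1] at this
        linear_combination this
      rw [hℓ1, ha] at hq
      rw [← hq]
      simp only [two_smul, one_smul, mul_sub, sub_mul, mul_one, one_mul]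
      abel
    · intro g
      obtain ⟨ℓ, hℓ, hℓS, A, τ, k, j, hA, hτ, h1, h2⟩ :=
        Fermat.Agent.S30.Density.Bridge.frobenius_density_final (fieldL W p ζ) g S'
      refine ⟨τ, ⟨ℓ, A, hℓ, hℓS, hA, hτ⟩, k, j, ?_, ?_, ?_, ?_, ?_⟩
      · rw [← map_pow]
        exact rho_eq_of_eqOn W p ζ _ _ h1
      · rw [← map_pow, ← map_pow]
        exact rho_eq_of_eqOn W p ζ _ _ h2
      · rw [← map_pow]
        exact omega_congr p _ _ (fun t ht => h1 t (root_mem_fieldL W p hM'pos hζ hpM' ht))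
      · rw [← map_pow, ← map_pow]
        exact omega_congr p _ _ (fun t ht => h2 t (root_mem_fieldL W p hM'pos hζ hpM' ht))
      · intro hg
        rw [mem_stab, h1 ζ (zeta_mem_fieldL W p ζ)]
        exact mem_stab.mp ((stab ζ).pow_mem hg k)
  exact hD.contradiction

end Fermat.Agent.S41.NonEis.Inst
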