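import Mathlib
import Fermat.Prelude.Def_FLTPrelim_GaloisRep
import Fermat.Agent.S13.CU.VarChange

/-!
# PROJECT R (S41), slice NonEis: irreducibility of `E[p]` is invariant under a rational change of
variables

`E` a Weierstrass curve over `ℚ`, `C : VariableChange ℚ`.  The isomorphism
`(C • E)(ℚbar) ≃+ E(ℚbar)` of `S13/CU/VarChange` is `G_ℚ`-equivariant, hence
`GaloisRepIsIrreducible ℚ E p → GaloisRepIsIrreducible ℚ (C • E) p` (`irreducible_smul`).
-/

set_option autoImplicit false
set_option linter.unusedSectionVars false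
set_option linter.style.haveILetI false

noncomputable section

namespace Fermat.Agent.S41.NonEis.Transfer

open WeierstrassCurve WeierstrassCurve.Affine
open scoped WeierstrassCurve.Affine
open Fermat.Agent.S13.CU.VarChange

local notation "Qb" => AlgebraicClosure ℚ
local notation "GQ" => (AlgebraicClosure ℚ ≃ₐ[ℚ] AlgebraicClosure ℚ)

variable (E : WeierstrassCurve ℚ) (C : VariableChange ℚ)

/-- the base change of `C` to `ℚbar`. -/
abbrev Cb : VariableChange Qb := C.map (algebraMap ℚ Qb)

theorem baseChange_smul :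
    ((C • E)⁄Qb : WeierstrassCurve Qb) = Cb C • (E⁄Qb : WeierstrassCurve Qb) :=
  (map_variableChange (C := C) (W := E) (φ := algebraMap ℚ Qb)).symm

/-- transport of points along an equality of curves. -/
def castPt {W₁ W₂ : WeierstrassCurve Qb} (h : W₁ = W₂) : W₁.toAffine.Point ≃+ W₂.toAffine.Point := by
  subst h
  exact AddEquiv.refl _

theorem castPt_zero {W₁ W₂ : WeierstrassCurve Qb} (h : W₁ = W₂) : castPt h 0 = 0 := map_zero _

theorem castPt_some {W₁ W₂ : WeierstrassCurve Qb} (h : W₁ = W₂) {x y : Qb}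
    (hxy : W₁.toAffine.Nonsingular x y) :
    castPt h (.some x y hxy) = .some x y (h ▸ hxy) := by
  subst h
  rfl

/-- the isomorphism `(C • E)(ℚbar) ≃+ E(ℚbar)`. -/
def ptEquiv : ((C • E)⁄Qb).Point ≃+ (E⁄Qb).Point :=
  (castPt (baseChange_smul E C)).trans (Fermat.Agent.S13.CU.VarChange.pointEquiv (E⁄Qb : WeierstrassCurve Qb) (Cb C))

theorem ptEquiv_zero : ptEquiv E C 0 = 0 := map_zero _

theorem ptEquiv_some {x y : Qb} (h : ((C • E)⁄Qb).Nonsingular x y) :
    ptEquiv E C (.some x y h) = .some (vx (Cb C) x) (vy (Cb C) x y)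
      ((nonsingular_smul_iff (E⁄Qb : WeierstrassCurve Qb) (Cb C) x y).mp
        (baseChange_smul E C ▸ h)) := by
  rw [ptEquiv, AddEquiv.trans_apply, castPt_some, Fermat.Agent.S13.CU.VarChange.pointEquiv_some]

theorem sigma_vx (σ : GQ) (x : Qb) : σ (vx (Cb C) x) = vx (Cb C) (σ x) := by
  simp only [vx, map_add, map_mul, map_pow]
  congr 1
  · congr 2
    exact σ.commutes (C.u : ℚ)
  · exact σ.commutes C.r

theorem sigma_vy (σ : GQ) (x y : Qb) : σ (vy (Cb C) x y) = vy (Cb C) (σ x) (σ y) := by
  simp only [vy, map_add, map_mul, map_pow]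
  have hu : σ (((Cb C).u : Qb)) = ((Cb C).u : Qb) := σ.commutes (C.u : ℚ)
  have hs : σ ((Cb C).s) = (Cb C).s := σ.commutes C.s
  have ht : σ ((Cb C).t) = (Cb C).t := σ.commutes C.t
  rw [hu, hs, ht]

/-- `ptEquiv` is Galois-equivariant. -/
theorem ptEquiv_smul (σ : GQ) (P : ((C • E)⁄Qb).Point) :
    ptEquiv E C (σ • P) = σ • ptEquiv E C P := by
  rcases P with _ | ⟨x, y, h⟩
  · change ptEquiv E C 0 = σ • ptEquiv E C 0
    rw [ptEquiv_zero]
    rfl
  · rw [Point.algEquiv_smul_def, Point.map_some, ptEquiv_some, ptEquiv_some,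
      Point.algEquiv_smul_def, Point.map_some, Point.some.injEq]
    exact ⟨(sigma_vx C σ x).symm, (sigma_vy C σ x y).symm⟩

/-! ### the induced map on `p`-torsion -/

variable (p : ℕ)

theorem ptEquiv_mem_torsionBy {P : ((C • E)⁄Qb).Point}
    (hP : P ∈ Submodule.torsionBy ℤ ((C • E)⁄Qb).Point p) :
    ptEquiv E C P ∈ Submodule.torsionBy ℤ (E⁄Qb).Point p := by
  rw [Submodule.mem_torsionBy_iff] at hP ⊢
  rw [← map_zsmul, hP, map_zero]

/-- the map `(C • E)[p] → E[p]`. -/
def torsionMap : Submodule.torsionBy ℤ ((C • E)⁄Qb).Point p →ₗ[ZMod p]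
    Submodule.torsionBy ℤ (E⁄Qb).Point p :=
  AddMonoidHom.toZModLinearMap p
    { toFun := fun v => ⟨ptEquiv E C (v : ((C • E)⁄Qb).Point), ptEquiv_mem_torsionBy E C p v.2⟩
      map_zero' := Subtype.ext (map_zero _)
      map_add' := fun _ _ => Subtype.ext (map_add _ _ _) }

theorem coe_torsionMap (v : Submodule.torsionBy ℤ ((C • E)⁄Qb).Point p) :
    ((torsionMap E C p v : Submodule.torsionBy ℤ (E⁄Qb).Point p) : (E⁄Qb).Point) =
      ptEquiv E C (v : ((C • E)⁄Qb).Point) := rfl

theorem torsionMap_injective : Function.Injective (torsionMap E C p) := by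
  intro a b hab
  apply Subtype.ext
  apply (ptEquiv E C).injective
  rw [← coe_torsionMap, ← coe_torsionMap, hab]

theorem torsionMap_surjective : Function.Surjective (torsionMap E C p) := by
  intro w
  obtain ⟨P, hP⟩ := (ptEquiv E C).surjective (w : (E⁄Qb).Point)
  have hmem : P ∈ Submodule.torsionBy ℤ ((C • E)⁄Qb).Point p := by
    rw [Submodule.mem_torsionBy_iff]
    apply (ptEquiv E C).injective
    rw [map_zsmul, hP, map_zero]
    exact (Submodule.mem_torsionBy_iff _ _).mp w.2
  exact ⟨⟨P, hmem⟩, Subtype.ext hP⟩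

theorem torsionMap_smul (σ : GQ) (v : Submodule.torsionBy ℤ ((C • E)⁄Qb).Point p) :
    torsionMap E C p (σ • v) = σ • torsionMap E C p v :=
  Subtype.ext (ptEquiv_smul E C σ _)

/-- **irreducibility of `E[p]` is invariant under a rational change of variables.** -/
theorem irreducible_smul
    (hirr : Point.GaloisRepIsIrreducible (K := Qb) ℚ E p) :
    Point.GaloisRepIsIrreducible (K := Qb) ℚ (C • E) p := by
  obtain ⟨hnt, hN⟩ := hirr
  refine ⟨?_, fun N hstab => ?_⟩
  · obtain ⟨x, y, hxy⟩ := hnt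
    obtain ⟨a, rfl⟩ := torsionMap_surjective E C p x
    obtain ⟨b, rfl⟩ := torsionMap_surjective E C p y
    exact ⟨a, b, fun h => hxy (by rw [h])⟩
  · have hstab' : Point.IsGaloisStable ℚ (N.map (torsionMap E C p)) := by
      rintro σ x ⟨v, hv, rfl⟩
      rw [← torsionMap_smul]
      exact Submodule.mem_map_of_mem (hstab σ v hv)
    rcases hN _ hstab' with h | h
    · left
      rw [Submodule.eq_bot_iff]
      intro x hx
      have h1 : torsionMap E C p x ∈ N.map (torsionMap E C p) := Submodule.mem_map_of_mem hx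
      rw [h, Submodule.mem_bot] at h1
      exact torsionMap_injective E C p (by rw [h1, map_zero])
    · right
      rw [Submodule.eq_top_iff']
      intro x
      have h1 : torsionMap E C p x ∈ N.map (torsionMap E C p) := by rw [h]; exact Submodule.mem_top
      obtain ⟨y, hy, hyx⟩ := h1
      rw [← torsionMap_injective E C p hyx]
      exact hy

end Fermat.Agent.S41.NonEis.Transfer
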