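import Mathlib
import Fermat.Prelude.Def_FLTPrelim_Modularity
import Fermat.Agent.S41.NonEis.Inst
import Fermat.Agent.S41.NonEis.Transfer

/-!
# PROJECT R (S41), slice NonEis: non-Eisenstein from irreducibility

`E/ℚ` elliptic, `W` an integral model, `p` odd with `E[p]` irreducible.  For every `M > 0` and every
finite set `S` of primes there is a prime `r ∉ S`, `r ≡ 1 mod M`, good for `W`, with
`a_r(W) ≢ r + 1 mod p`.  (Consumer: the maximal ideal of the Hecke algebra cut out by the
congruence `a_ℓ(f) ≡ a_ℓ(W)` is not Eisenstein.)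
-/

set_option autoImplicit false
set_option linter.unusedSectionVars false
set_option linter.style.haveILetI false

namespace Fermat.Agent.S41.NonEis.Main

open WeierstrassCurve WeierstrassCurve.Affine
open scoped WeierstrassCurve.Affine

local notation "Qb" => AlgebraicClosure ℚ

/-- the discriminant of an integral model of an elliptic curve is non-zero. -/
theorem disc_ne_zero (E : WeierstrassCurve ℚ) [E.IsElliptic] {W : WeierstrassCurve ℤ}
    (hW : W.IsIntegralModelOf E) : W.Δ ≠ 0 := by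
  obtain ⟨C, hC⟩ := hW
  intro h0
  have h1 : (W.map (Int.castRingHom ℚ)).Δ = 0 := by
    rw [WeierstrassCurve.map_Δ, h0, map_zero]
  rw [← hC, WeierstrassCurve.variableChange_Δ] at h1
  rcases mul_eq_zero.mp h1 with h2 | h2
  · exact (pow_ne_zero 12 (Units.ne_zero _)) h2
  · exact E.isUnit_Δ.ne_zero h2

/-- **Non-Eisenstein from irreducibility.** -/
theorem exists_prime_ap_ne (E : WeierstrassCurve ℚ) [E.IsElliptic] {W : WeierstrassCurve ℤ}
    (hW : W.IsIntegralModelOf E) {p : ℕ} (hp : p.Prime) (hp2 : p ≠ 2)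
    (hirr : Point.GaloisRepIsIrreducible (K := Qb) ℚ E p)
    (M : ℕ) (hM : 0 < M) (S : Finset ℕ) :
    ∃ r : ℕ, r.Prime ∧ r ∉ S ∧ r ≡ 1 [MOD M] ∧ W.IsGoodPrimeFor r ∧
      ¬ (p : ℤ) ∣ W.apOfModel r - ((r : ℤ) + 1) := by
  haveI : Fact p.Prime := ⟨hp⟩
  have hΔ := disc_ne_zero E hW
  obtain ⟨C, hC⟩ := hW
  have hirr' : Point.GaloisRepIsIrreducible (K := Qb) ℚ (W.map (Int.castRingHom ℚ)) p := by
    rw [← hC]
    exact Fermat.Agent.S41.NonEis.Transfer.irreducible_smul E C p hirr
  exact Fermat.Agent.S41.NonEis.Inst.exists_prime_ap_ne_model p hΔ hp2 hirr' M hM S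

end Fermat.Agent.S41.NonEis.Main
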