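import Mathlib
import Fermat.Agent.S41.NonEis.Core

/-!
# PROJECT R (S41), slice NonEis, squared version: the abstract core

Same setting as `NonEis/Core`: `V` a plane over `𝔽_p` (`p` odd) with an irreducible action `ρ` of
`G`, `H ⊴ G` with `G/H` abelian and `ω = 1` on `H`, Frobenius elements `𝔉` dense in the cyclic
sense, an involution `c` with `ω c = -1`.

If EVERY Frobenius element `τ` satisfies `τ² - ε (1 + ω τ) τ + ω τ = 0` for a sign `ε = ε(τ)`
(i.e. `a_τ² = (1 + ω τ)²`), we get a contradiction (`Hyp.contradiction`):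

* every `g` satisfies `(ρ g - ε)(ρ g - ε ω g) = 0` for a sign `ε = ε(g)` (`master`);
* the elements of `H` are `±`unipotent, the unipotent ones form a normal subgroup `Hplus`
  (trace trick: `tr (x y) = 2 + t`, `tr (x² y) = 2 + 2 t` both in `{2, -2}` forces `t = 0`),
  which acts trivially (Kolchin by counting and irreducibility), so `ρ h = ± 1` on `H`;
* `ρ g₁ ρ g₂ = ± ρ g₂ ρ g₁`, and the sign `-` is impossible (it forces `ω g₁ = ω g₂ = ω (g₁ g₂) = -1`);
* so the image is commutative, `ρ c = ± 1` has determinant `1 ≠ ω c`.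
-/

set_option autoImplicit false
set_option linter.unusedSectionVars false
set_option linter.style.haveILetI false

namespace Fermat.Agent.S41.NonEis.CoreSq

open Module Fermat.Agent.S41.NonEis.Core

variable {p : ℕ} [hp : Fact p.Prime]
variable {G : Type*} [Group G] {V : Type*} [AddCommGroup V] [Module (ZMod p) V]

/-! ### algebra in `End V` -/

section Alg

variable {R : Type*} [Ring R] [Algebra (ZMod p) R]

theorem commute_smul_one (x : R) (a : ZMod p) : Commute x (a • (1 : R)) := by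
  rw [← Algebra.algebraMap_eq_smul_one]
  exact (Algebra.commutes a x).symm

theorem smul_one_pow (a : ZMod p) (j : ℕ) : (a • (1 : R)) ^ j = (a ^ j) • (1 : R) := by
  rw [smul_pow, one_pow]

/-- `(x - a)(x - b) = 0` implies `(x^j - a^j)(x^j - b^j) = 0` for scalars `a`, `b`. -/
theorem quad_pow (x : R) (a b : ZMod p)
    (h : (x - a • (1 : R)) * (x - b • (1 : R)) = 0) (j : ℕ) :
    (x ^ j - (a ^ j) • (1 : R)) * (x ^ j - (b ^ j) • (1 : R)) = 0 := by
  have h1 := (commute_smul_one x a).geom_sum₂_mul j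
  have h2 := (commute_smul_one x b).mul_geom_sum₂ j
  rw [smul_one_pow] at h1 h2
  rw [← h1, ← h2, mul_assoc, ← mul_assoc (x - a • (1 : R)), h, zero_mul, mul_zero]

theorem sign_cases {ε : ZMod p} (hε : ε * ε = 1) : ε = 1 ∨ ε = -1 :=
  mul_self_eq_one_iff.mp hε

end Alg

/-- `(2 : ZMod p) ≠ 0` for odd `p`. -/
theorem two_ne_zero' (hp2 : p ≠ 2) : (2 : ZMod p) ≠ 0 := by
  intro h
  have h4 : ((2 : ℕ) : ZMod p) = 0 := by exact_mod_cast h
  rw [ZMod.natCast_eq_zero_iff] at h4
  exact hp2 ((Nat.prime_dvd_prime_iff_eq hp.out Nat.prime_two).mp h4)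

/-! ### traces of `±`unipotent elements of a plane -/

section Trace

/-- the trace of `x` with `(x - ε)² = 0` on a plane is `2 ε`. -/
theorem trace_of_sq_zero (hfin : finrank (ZMod p) V = 2) (x : Module.End (ZMod p) V) (ε : ZMod p)
    (h : (x - ε • (1 : Module.End (ZMod p) V)) * (x - ε • (1 : Module.End (ZMod p) V)) = 0) :
    LinearMap.trace (ZMod p) V x = 2 * ε := by
  haveI : Module.Finite (ZMod p) V := Module.finite_of_finrank_pos (by rw [hfin]; norm_num)
  have hn : IsNilpotent (x - ε • (1 : Module.End (ZMod p) V)) := ⟨2, by rw [pow_two]; exact h⟩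
  have h0 : LinearMap.trace (ZMod p) V (x - ε • (1 : Module.End (ZMod p) V)) = 0 :=
    (LinearMap.isNilpotent_trace_of_isNilpotent hn).eq_zero
  rw [map_sub, map_smul, LinearMap.trace_one, hfin, sub_eq_zero] at h0
  rw [h0]
  simp [mul_comm]


/-- **the trace trick**: if `x`, `y` are unipotent and `x y`, `x x y` are `±`unipotent, then `x y`
is unipotent. -/
theorem sign_eq_one_of_unipotent (hp2 : p ≠ 2) (hfin : finrank (ZMod p) V = 2)
    (x y : Module.End (ZMod p) V)
    (ux : (x - 1) * (x - 1) = 0) (uy : (y - 1) * (y - 1) = 0) (ε₁ ε₂ : ZMod p)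
    (hε₁ : ε₁ * ε₁ = 1) (hε₂ : ε₂ * ε₂ = 1)
    (e₁ : (x * y - ε₁ • (1 : Module.End (ZMod p) V)) * (x * y - ε₁ • (1 : Module.End (ZMod p) V)) = 0)
    (e₂ : (x * x * y - ε₂ • (1 : Module.End (ZMod p) V)) *
      (x * x * y - ε₂ • (1 : Module.End (ZMod p) V)) = 0) : ε₁ = 1 := by
  haveI : Module.Finite (ZMod p) V := Module.finite_of_finrank_pos (by rw [hfin]; norm_num)
  have h2 := two_ne_zero' (p := p) hp2
  set m := x - 1 with hm
  set n := y - 1 with hn
  have hx : x = 1 + m := by rw [hm]; abel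
  have hy : y = 1 + n := by rw [hn]; abel
  have tm : LinearMap.trace (ZMod p) V m = 0 :=
    (LinearMap.isNilpotent_trace_of_isNilpotent ⟨2, by rw [pow_two]; exact ux⟩).eq_zero
  have tn : LinearMap.trace (ZMod p) V n = 0 :=
    (LinearMap.isNilpotent_trace_of_isNilpotent ⟨2, by rw [pow_two]; exact uy⟩).eq_zero
  have t1 : LinearMap.trace (ZMod p) V (1 : Module.End (ZMod p) V) = 2 := by
    rw [LinearMap.trace_one, hfin]; norm_num
  have hxy : x * y = 1 + m + n + m * n := by rw [hx, hy]; noncomm_ring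
  have hxxy : x * x * y = 1 + (2 : ZMod p) • m + n + (2 : ZMod p) • (m * n) := by
    have : (1 + m) * (1 + m) = 1 + (2 : ZMod p) • m := by
      rw [mul_add, add_mul, add_mul, ux, one_mul, mul_one, one_mul, two_smul]
      abel
    rw [hx, this, hy, add_mul, mul_add, mul_add, one_mul, mul_one, one_mul, smul_mul_assoc]
    abel
  have T1 := trace_of_sq_zero hfin (x * y) ε₁ e₁
  have T2 := trace_of_sq_zero hfin (x * x * y) ε₂ e₂
  rw [hxy, map_add, map_add, map_add, t1, tm, tn] at T1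
  rw [hxxy, map_add, map_add, map_add, map_smul, map_smul, t1, tm, tn] at T2
  set t := LinearMap.trace (ZMod p) V (m * n) with ht
  simp only [smul_eq_mul, mul_zero, add_zero] at T1 T2
  rcases sign_cases hε₁ with h1 | h1
  · exact h1
  · exfalso
    rw [h1] at T1
    have ht4 : t = -4 := by linear_combination T1
    rw [ht4] at T2
    rcases sign_cases hε₂ with h | h
    · rw [h] at T2
      have : (2 : ZMod p) * 2 * 2 = 0 := by linear_combination -T2
      rcases mul_eq_zero.mp this with h' | h'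
      · rcases mul_eq_zero.mp h' with h'' | h'' <;> exact h2 h''
      · exact h2 h'
    · rw [h] at T2
      have : (2 : ZMod p) * 2 = 0 := by linear_combination -T2
      rcases mul_eq_zero.mp this with h' | h' <;> exact h2 h'

/-- the inverse of a unipotent element is unipotent. -/
theorem unipotent_inv {x x' : Module.End (ZMod p) V} (h1 : x * x' = 1) (h2 : x' * x = 1)
    (ux : (x - 1) * (x - 1) = 0) : (x' - 1) * (x' - 1) = 0 := by
  have e1 : x' - 1 = -(x' * (x - 1)) := by rw [mul_sub, h2, mul_one]; abel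
  have e2 : x' - 1 = -((x - 1) * x') := by rw [sub_mul, h1, one_mul]; abel
  calc (x' - 1) * (x' - 1) = -(x' * (x - 1)) * -((x - 1) * x') := by rw [← e1, ← e2]
    _ = x' * ((x - 1) * (x - 1)) * x' := by noncomm_ring
    _ = 0 := by rw [ux, mul_zero, zero_mul]

/-- a conjugate of a unipotent element is unipotent. -/
theorem unipotent_conj {x g g' : Module.End (ZMod p) V} (h1 : g * g' = 1)
    (ux : (x - 1) * (x - 1) = 0) : (g' * x * g - g' * g) * (g' * x * g - g' * g) = 0 := by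
  calc (g' * x * g - g' * g) * (g' * x * g - g' * g)
      = g' * (x - 1) * (g * g') * (x - 1) * g := by noncomm_ring
    _ = g' * ((x - 1) * (x - 1)) * g := by rw [h1]; noncomm_ring
    _ = 0 := by rw [ux, mul_zero, zero_mul]

end Trace

/-! ### the main abstract theorem -/

section main

variable (ρ : G →* Module.End (ZMod p) V)

local notation "𝟙" => (1 : Module.End (ZMod p) V)

/-- The hypotheses of the abstract core, squared version. -/
structure Hyp (ω : G →* (ZMod p)ˣ) (H : Subgroup G) (𝔉 : Set G) (c : G) : Prop where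
  hp2 : p ≠ 2
  hfin : finrank (ZMod p) V = 2
  hirr : ∀ N : Submodule (ZMod p) V, (∀ g : G, ∀ x ∈ N, ρ g x ∈ N) → N = ⊥ ∨ N = ⊤
  hnormal : ∀ g : G, ∀ h ∈ H, g⁻¹ * h * g ∈ H
  hcomm : ∀ g₁ g₂ : G, g₁ * g₂ * (g₂ * g₁)⁻¹ ∈ H
  hHω : ∀ h ∈ H, ω h = 1
  hquadE : ∀ τ ∈ 𝔉, ∃ ε : ZMod p, ε * ε = 1 ∧
    ρ τ * ρ τ - (ε * (1 + ((ω τ : (ZMod p)ˣ) : ZMod p))) • ρ τ +
      ((ω τ : (ZMod p)ˣ) : ZMod p) • 𝟙 = 0
  hdens : ∀ g : G, ∃ τ ∈ 𝔉, ∃ k j : ℕ, ρ τ = ρ g ^ k ∧ (ρ g ^ k) ^ j = ρ g ∧ ω τ = ω g ^ k ∧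
    (ω g ^ k) ^ j = ω g
  hc : c * c = 1
  hcω : ω c = -1

variable {ρ} {ω : G →* (ZMod p)ˣ} {H : Subgroup G} {𝔉 : Set G} {c : G}

namespace Hyp

variable (D : Hyp ρ ω H 𝔉 c)

include D

theorem finite : Module.Finite (ZMod p) V :=
  Module.finite_of_finrank_pos (by rw [D.hfin]; norm_num)

theorem nontrivial : Nontrivial V :=
  Module.nontrivial_of_finrank_pos (R := ZMod p) (by rw [D.hfin]; norm_num)

theorem rho_mul_inv (g : G) : ρ g * ρ g⁻¹ = 1 := by rw [← map_mul, mul_inv_cancel, map_one]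

theorem rho_inv_mul (g : G) : ρ g⁻¹ * ρ g = 1 := by rw [← map_mul, inv_mul_cancel, map_one]

/-- the factored form of the quadratic relation. -/
theorem factored {x : Module.End (ZMod p) V} {ε w : ZMod p} (hε : ε * ε = 1)
    (h : x * x - (ε * (1 + w)) • x + w • 𝟙 = 0) : (x - ε • 𝟙) * (x - (ε * w) • 𝟙) = 0 := by
  have h1 : (x - ε • 𝟙) * (x - (ε * w) • 𝟙) = x * x - (ε * (1 + w)) • x + (ε * (ε * w)) • 𝟙 := by
    simp only [sub_mul, mul_sub, smul_mul_assoc, mul_smul_comm, one_mul, mul_one]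
    module
  rw [h1, ← mul_assoc, hε, one_mul]
  exact h

/-- the expanded form of the quadratic relation. -/
theorem expanded {x : Module.End (ZMod p) V} {ε w : ZMod p} (hε : ε * ε = 1)
    (h : (x - ε • 𝟙) * (x - (ε * w) • 𝟙) = 0) : x * x - (ε * (1 + w)) • x + w • 𝟙 = 0 := by
  have h1 : (x - ε • 𝟙) * (x - (ε * w) • 𝟙) = x * x - (ε * (1 + w)) • x + (ε * (ε * w)) • 𝟙 := by
    simp only [sub_mul, mul_sub, smul_mul_assoc, mul_smul_comm, one_mul, mul_one]
    module
  rw [h1, ← mul_assoc, hε, one_mul] at h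
  exact h

/-- **the master property**: every `g` satisfies `(ρ g - ε)(ρ g - ε ω g) = 0` for a sign `ε`. -/
theorem master (g : G) : ∃ ε : ZMod p, ε * ε = 1 ∧
    (ρ g - ε • 𝟙) * (ρ g - (ε * ((ω g : (ZMod p)ˣ) : ZMod p)) • 𝟙) = 0 := by
  obtain ⟨τ, hτ, k, j, h1, h2, h3, h4⟩ := D.hdens g
  obtain ⟨ε, hε, hq⟩ := D.hquadE τ hτ
  have hf := quad_pow (ρ τ) ε (ε * ((ω τ : (ZMod p)ˣ) : ZMod p)) (D.factored hε hq) j
  have hω : (((ω τ : (ZMod p)ˣ) : ZMod p)) ^ j = ((ω g : (ZMod p)ˣ) : ZMod p) := by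
    rw [h3, ← Units.val_pow_eq_pow_val, h4]
  refine ⟨ε ^ j, ?_, ?_⟩
  · rw [← mul_pow, hε, one_pow]
  · rw [h1, h2, mul_pow, hω] at hf
    exact hf

/-- Step A: every element of `H` is `±`unipotent. -/
theorem pm_unipotent_of_mem {h : G} (hh : h ∈ H) : ∃ ε : ZMod p, ε * ε = 1 ∧
    (ρ h - ε • 𝟙) * (ρ h - ε • 𝟙) = 0 := by
  obtain ⟨ε, hε, hq⟩ := D.master h
  rw [D.hHω h hh, Units.val_one, mul_one] at hq
  exact ⟨ε, hε, hq⟩

/-- Step B: the product of two unipotent elements of `H` is unipotent. -/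
theorem unip_mul {h₁ h₂ : G} (hh₁ : h₁ ∈ H) (hh₂ : h₂ ∈ H)
    (u₁ : (ρ h₁ - 1) * (ρ h₁ - 1) = 0) (u₂ : (ρ h₂ - 1) * (ρ h₂ - 1) = 0) :
    (ρ (h₁ * h₂) - 1) * (ρ (h₁ * h₂) - 1) = 0 := by
  obtain ⟨ε₁, hε₁, e₁⟩ := D.pm_unipotent_of_mem (H.mul_mem hh₁ hh₂)
  obtain ⟨ε₂, hε₂, e₂⟩ := D.pm_unipotent_of_mem (H.mul_mem (H.mul_mem hh₁ hh₁) hh₂)
  rw [map_mul] at e₁
  rw [map_mul, map_mul] at e₂
  have h1 := sign_eq_one_of_unipotent D.hp2 D.hfin (ρ h₁) (ρ h₂) u₁ u₂ ε₁ ε₂ hε₁ hε₂ e₁ e₂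
  rw [h1, one_smul] at e₁
  rw [map_mul]
  exact e₁

/-- the subgroup of the elements of `H` acting unipotently. -/
def Hplus : Subgroup G where
  carrier := {h | h ∈ H ∧ (ρ h - 1) * (ρ h - 1) = 0}
  mul_mem' := fun {a b} ha hb => ⟨H.mul_mem ha.1 hb.1, D.unip_mul ha.1 hb.1 ha.2 hb.2⟩
  one_mem' := ⟨H.one_mem, by rw [map_one, sub_self, zero_mul]⟩
  inv_mem' := fun {a} ha =>
    ⟨H.inv_mem ha.1, unipotent_inv (D.rho_mul_inv a) (D.rho_inv_mul a) ha.2⟩

theorem mem_Hplus {h : G} : h ∈ D.Hplus ↔ h ∈ H ∧ (ρ h - 1) * (ρ h - 1) = 0 := Iff.rfl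

theorem Hplus_normal (g : G) {h : G} (hh : h ∈ D.Hplus) : g⁻¹ * h * g ∈ D.Hplus := by
  refine ⟨D.hnormal g h hh.1, ?_⟩
  have := unipotent_conj (g := ρ g) (g' := ρ g⁻¹) (D.rho_mul_inv g) hh.2
  rw [D.rho_inv_mul g] at this
  rw [map_mul, map_mul]
  exact this

/-- Step C (Kolchin + irreducibility): `Hplus` acts trivially. -/
theorem trivial_of_mem_Hplus {h : G} (hh : h ∈ D.Hplus) : ρ h = 1 := by
  haveI := D.finite
  haveI := D.nontrivial
  obtain ⟨v, hv0, hv⟩ := exists_fixed_of_unipotent ρ D.Hplus (fun h hh => hh.2)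
  let F : Submodule (ZMod p) V :=
    { carrier := {w | ∀ h ∈ D.Hplus, ρ h w = w}
      add_mem' := fun {a b} ha hb h hh => by rw [map_add, ha h hh, hb h hh]
      zero_mem' := fun h _ => map_zero _
      smul_mem' := fun s a ha h hh => by rw [map_smul, ha h hh] }
  have hF : ∀ g : G, ∀ x ∈ F, ρ g x ∈ F := by
    intro g x hx h hh
    have h1 : ρ h (ρ g x) = ρ g (ρ (g⁻¹ * h * g) x) := by
      rw [← Module.End.mul_apply, ← Module.End.mul_apply, ← map_mul, ← map_mul]
      congr 2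
      group
    rw [h1, hx _ (D.Hplus_normal g hh)]
  rcases D.hirr F hF with hbot | htop
  · exact absurd ((Submodule.eq_bot_iff F).mp hbot v hv) hv0
  · ext w
    have : w ∈ F := htop ▸ Submodule.mem_top
    exact this h hh

/-- Step D: `H` acts through `±1`. -/
theorem rho_pm_one_of_mem {h : G} (hh : h ∈ H) : ρ h = 1 ∨ ρ h = -1 := by
  obtain ⟨ε, hε, hq⟩ := D.pm_unipotent_of_mem hh
  have hsq := quad_pow (ρ h) ε ε hq 2
  have hε2 : ε ^ 2 = 1 := by rw [pow_two]; exact hε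
  rw [hε2, one_smul, pow_two, ← map_mul] at hsq
  have hmem : h * h ∈ D.Hplus := ⟨H.mul_mem hh hh, hsq⟩
  have h1 := D.trivial_of_mem_Hplus hmem
  rw [map_mul] at h1
  have h2ne := two_ne_zero' (p := p) D.hp2
  have hεne : ε ≠ 0 := by
    rintro rfl
    rw [mul_zero] at hε
    exact zero_ne_one hε
  have h3 : (2 * ε) • (ρ h - ε • 𝟙) = 0 := by
    have e1 : (ρ h - ε • 𝟙) * (ρ h - ε • 𝟙) =
        ρ h * ρ h - (2 * ε) • ρ h + (ε * ε) • 𝟙 := by
      simp only [sub_mul, mul_sub, smul_mul_assoc, mul_smul_comm, one_mul, mul_one]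
      module
    rw [hq, h1, hε, one_smul] at e1
    have e2 : (2 * ε) • (ρ h - ε • 𝟙) = (2 * ε) • ρ h - (2 * (ε * ε)) • 𝟙 := by
      rw [smul_sub, smul_smul, mul_assoc]
    rw [e2, hε, mul_one, two_smul (ZMod p) 𝟙]
    rw [eq_comm, sub_add_eq_add_sub, sub_eq_zero] at e1
    rw [← e1, sub_self]
  rcases smul_eq_zero.mp h3 with h4 | h4
  · rcases mul_eq_zero.mp h4 with h5 | h5
    · exact absurd h5 h2ne
    · exact absurd h5 hεne
  · rw [sub_eq_zero] at h4
    rcases sign_cases hε with h5 | h5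
    · left; rw [h4, h5, one_smul]
    · right; rw [h4, h5, neg_smul, one_smul]

/-- Step E: anticommuting elements have `ω = -1`. -/
theorem omega_of_anticomm (g₁ g₂ : G) (h : ρ g₁ * ρ g₂ = -(ρ g₂ * ρ g₁)) :
    ((ω g₁ : (ZMod p)ˣ) : ZMod p) = -1 := by
  obtain ⟨ε, hε, hq⟩ := D.master g₁
  have hexp := D.expanded hε hq
  set x := ρ g₁ with hx
  set y := ρ g₂ with hy
  set w := ((ω g₁ : (ZMod p)ˣ) : ZMod p) with hw
  set a := ε * (1 + w) with ha
  have h2ne := two_ne_zero' (p := p) D.hp2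
  have hεne : ε ≠ 0 := by
    rintro rfl
    rw [mul_zero] at hε
    exact zero_ne_one hε
  have E1 : x * x * y - a • (x * y) + w • y = 0 := by
    have := congrArg (fun z => z * y) hexp
    simp only [add_mul, sub_mul, smul_mul_assoc, one_mul, zero_mul] at this
    exact this
  have E2 : y * (x * x) - a • (y * x) + w • y = 0 := by
    have := congrArg (fun z => y * z) hexp
    simp only [mul_add, mul_sub, mul_smul_comm, mul_one, mul_zero] at this
    exact this
  have hyx : y * x = -(x * y) := by rw [h, neg_neg]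
  have hyxx : y * (x * x) = x * x * y := by
    rw [← mul_assoc, hyx, neg_mul, mul_assoc, hyx, mul_neg, neg_neg, mul_assoc]
  rw [hyxx, hyx, smul_neg] at E2
  have E3 : (2 * a) • (x * y) = 0 := by
    rw [mul_smul, two_smul]
    linear_combination (norm := abel) E2 - E1
  have hxy : x * y ≠ 0 := by
    intro h0
    have h1 : ρ (g₁ * g₂) * ρ (g₁ * g₂)⁻¹ = 1 := D.rho_mul_inv _
    rw [map_mul, ← hx, ← hy, h0, zero_mul] at h1
    haveI := D.nontrivial
    obtain ⟨v, hv⟩ := exists_ne (0 : V)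
    exact hv (by simpa using (LinearMap.congr_fun h1 v).symm)
  rcases smul_eq_zero.mp E3 with h4 | h4
  · rcases mul_eq_zero.mp h4 with h5 | h5
    · exact absurd h5 h2ne
    · rw [ha] at h5
      rcases mul_eq_zero.mp h5 with h6 | h6
      · exact absurd h6 hεne
      · linear_combination h6
  · exact absurd h4 hxy

/-- Step F: the image is commutative. -/
theorem commute (g₁ g₂ : G) : ρ g₁ * ρ g₂ = ρ g₂ * ρ g₁ := by
  have h2 : ρ ((g₂ * g₁)⁻¹) * ρ (g₂ * g₁) = 1 := D.rho_inv_mul _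
  have key : ρ g₁ * ρ g₂ = ρ (g₁ * g₂ * (g₂ * g₁)⁻¹) * (ρ g₂ * ρ g₁) := by
    rw [← map_mul, ← map_mul, ← map_mul]
    congr 1
    group
  rcases D.rho_pm_one_of_mem (D.hcomm g₁ g₂) with h | h
  · rw [key, h, one_mul]
  · exfalso
    rw [h, neg_one_mul] at key
    have h2ne := two_ne_zero' (p := p) D.hp2
    have w1 := D.omega_of_anticomm g₁ g₂ key
    have key' : ρ g₂ * ρ g₁ = -(ρ g₁ * ρ g₂) := by rw [key, neg_neg]
    have w2 := D.omega_of_anticomm g₂ g₁ key'
    have key'' : ρ (g₁ * g₂) * ρ g₂ = -(ρ g₂ * ρ (g₁ * g₂)) := by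
      rw [map_mul, ← mul_assoc, key', neg_mul, neg_neg]
    have w3 := D.omega_of_anticomm (g₁ * g₂) g₂ key''
    rw [map_mul, Units.val_mul, w1, w2] at w3
    apply h2ne
    linear_combination w3

/-- Step G: `ρ c = ± 1`. -/
theorem rho_c : ρ c = 1 ∨ ρ c = -1 := by
  have hcc : ρ c * ρ c = 1 := by rw [← map_mul, D.hc, map_one]
  let N : Submodule (ZMod p) V := LinearMap.ker (ρ c - 1)
  have hN : ∀ g : G, ∀ x ∈ N, ρ g x ∈ N := by
    intro g x hx
    rw [LinearMap.mem_ker] at hx ⊢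
    have h1 : (ρ c - 1) (ρ g x) = ρ g ((ρ c - 1) x) := by
      simp only [LinearMap.sub_apply, Module.End.one_apply, map_sub]
      rw [← Module.End.mul_apply, ← Module.End.mul_apply, D.commute c g]
    rw [h1, hx, map_zero]
  have hmem : ∀ v : V, ρ c v + v ∈ N := by
    intro v
    rw [LinearMap.mem_ker]
    simp only [LinearMap.sub_apply, Module.End.one_apply, map_add]
    rw [← Module.End.mul_apply, hcc, Module.End.one_apply]
    abel
  rcases D.hirr N hN with hbot | htop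
  · right
    ext v
    have := (Submodule.eq_bot_iff N).mp hbot _ (hmem v)
    rw [LinearMap.neg_apply, Module.End.one_apply]
    exact eq_neg_of_add_eq_zero_left this
  · left
    ext v
    have : v ∈ N := htop ▸ Submodule.mem_top
    rw [LinearMap.mem_ker, LinearMap.sub_apply, sub_eq_zero] at this
    exact this

/-- some element is not scalar. -/
theorem exists_not_isScalar : ∃ g : G, ¬ IsScalar ρ g := by
  by_contra hall'
  have hall : ∀ g : G, IsScalar ρ g := fun g => by_contra fun h => hall' ⟨g, h⟩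
  haveI := D.nontrivial
  obtain ⟨v, hv⟩ := exists_ne (0 : V)
  let N : Submodule (ZMod p) V := Submodule.span (ZMod p) {v}
  have hN : ∀ g : G, ∀ x ∈ N, ρ g x ∈ N := by
    intro g x hx
    obtain ⟨s, hs⟩ := hall g
    rw [hs, LinearMap.smul_apply, Module.End.one_apply]
    exact N.smul_mem s hx
  rcases D.hirr N hN with hbot | htop
  · exact hv ((Submodule.span_singleton_eq_bot).mp hbot)
  · have h1 : finrank (ZMod p) N = 1 := finrank_span_singleton hv
    rw [htop, finrank_top, D.hfin] at h1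
    norm_num at h1

/-- `det ρ g = ω g` for non-scalar `g`. -/
theorem det_eq_of_not_isScalar {g : G} (hg : ¬ IsScalar ρ g) :
    LinearMap.det (ρ g) = ((ω g : (ZMod p)ˣ) : ZMod p) := by
  obtain ⟨ε, hε, hq⟩ := D.master g
  exact det_eq_of_quadratic D.hfin (ρ g) _ _ (D.expanded hε hq) (fun s hs => hg ⟨s, hs⟩)

/-- `det ρ g = ω g` for all `g`. -/
theorem det_eq (g : G) : LinearMap.det (ρ g) = ((ω g : (ZMod p)ˣ) : ZMod p) := by
  by_cases hg : IsScalar ρ g
  · obtain ⟨g₀, hg₀⟩ := D.exists_not_isScalar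
    have hgg₀ : ¬ IsScalar ρ (g * g₀) := by
      rintro ⟨t, ht⟩
      obtain ⟨s, hs⟩ := hg
      apply hg₀
      have hs0 : s ≠ 0 := by
        rintro rfl
        rw [zero_smul] at hs
        have h1 : ρ g * ρ g⁻¹ = 1 := D.rho_mul_inv g
        rw [hs, zero_mul] at h1
        haveI := D.nontrivial
        obtain ⟨v, hv⟩ := exists_ne (0 : V)
        exact hv (by simpa using (LinearMap.congr_fun h1 v).symm)
      refine ⟨s⁻¹ * t, ?_⟩
      rw [map_mul, hs] at ht
      rw [mul_smul, ← ht, smul_mul_assoc, one_mul, smul_smul, inv_mul_cancel₀ hs0, one_smul]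
    have h1 := D.det_eq_of_not_isScalar hgg₀
    have h2 := D.det_eq_of_not_isScalar hg₀
    rw [map_mul, map_mul, map_mul, Units.val_mul, h2] at h1
    exact mul_right_cancel₀ (Units.ne_zero _) h1
  · exact D.det_eq_of_not_isScalar hg

/-- **The abstract core, squared version**: the hypotheses are contradictory. -/
theorem contradiction : False := by
  have h1 := D.det_eq c
  rw [D.hcω] at h1
  have h2 : LinearMap.det (ρ c) = 1 := by
    rcases D.rho_c with h | h
    · rw [h, map_one]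
    · rw [h, show (-1 : Module.End (ZMod p) V) = (-1 : ZMod p) • (1 : Module.End (ZMod p) V) by
        rw [neg_smul, one_smul], LinearMap.det_smul, D.hfin, map_one]
      norm_num
  rw [h2] at h1
  apply two_ne_zero' (p := p) D.hp2
  have : (1 : ZMod p) = -1 := by simpa using h1
  linear_combination this

end Hyp

end main

end Fermat.Agent.S41.NonEis.CoreSq
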