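import Mathlib
import Fermat.Agent.S41.NonEis.Inst
import Fermat.Agent.S41.NonEis.CoreSq

/-!
# PROJECT R (S41), slice NonEis, squared version: the instantiation at `E[p]`

`W : WeierstrassCurve ℤ` with `Δ ≠ 0`, `E = W ⊗ ℚ`, `p` an odd prime with `E[p]` irreducible.
For every finite set `S` of primes there is a prime `r ∉ S`, good for `W`, with
`a_r(W)² ≢ (r + 1)² mod p` (`exists_prime_ap_sq_ne_model`).
-/

set_option autoImplicit false
set_option linter.unusedSectionVars false
set_option linter.style.haveILetI false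

noncomputable section

namespace Fermat.Agent.S41.NonEis.InstSq

open WeierstrassCurve WeierstrassCurve.Affine
open scoped WeierstrassCurve.Affine
open Fermat.Agent.S58.TateE (WQ Pts)
open Fermat.Agent.S41.NonEis.Roots
open Fermat.Agent.S41.NonEis.Inst
open Fermat.Agent.S30.Algebra.Cyclotomic (Qbar GQ)

variable {W : WeierstrassCurve ℤ} (p : ℕ) [Fact p.Prime]

/-- **Non-Eisenstein from irreducibility, squared version**, for the model `W` itself. -/
theorem exists_prime_ap_sq_ne_model (hΔ : W.Δ ≠ 0) (hp2 : p ≠ 2)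
    (hirr : Point.GaloisRepIsIrreducible (K := Qbar) ℚ (WQ W) p) (S : Finset ℕ) :
    ∃ r : ℕ, r.Prime ∧ r ∉ S ∧ W.IsGoodPrimeFor r ∧
      ¬ (p : ℤ) ∣ W.apOfModel r ^ 2 - ((r : ℤ) + 1) ^ 2 := by
  by_contra hcon
  have hall : ∀ r : ℕ, r.Prime → r ∉ S → W.IsGoodPrimeFor r →
      (p : ℤ) ∣ W.apOfModel r ^ 2 - ((r : ℤ) + 1) ^ 2 := by
    intro r h1 h2 h4
    by_contra h5
    exact hcon ⟨r, h1, h2, h4, h5⟩
  have hppos : 0 < p := (Fact.out : p.Prime).pos
  haveI : NeZero p := ⟨hppos.ne'⟩
  obtain ⟨ζ, hζ⟩ := HasEnoughRootsOfUnity.exists_primitiveRoot Qbar p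
  set S' := badSet W p S p with hS'
  haveI := finiteDimensional_fieldL p hΔ ζ
  have hD : CoreSq.Hyp (rho W p) (omega p) (stab ζ) (frobSet S') complexConjugation := by
    refine
      { hp2 := hp2
        hfin := finrank_Vp p hΔ
        hirr := fun N hN => hirr.2 N (fun σ x hx => hN σ x hx)
        hnormal := fun g h hh => stab_normal hζ g h hh
        hcomm := fun g₁ g₂ => stab_comm hζ g₁ g₂
        hHω := fun h hh => omega_of_mem_stab p hppos hζ dvd_rfl hh
        hquadE := ?_
        hdens := ?_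
        hc := complexConjugation_mul_self
        hcω := omega_complexConjugation p }
    · rintro τ ⟨ℓ, A, hℓ, hℓS, hA, hτ⟩
      obtain ⟨hℓnS, hℓp, -, hgood⟩ := not_mem_badSet p hppos hΔ hℓ hℓS
      have h7 := hall ℓ hℓ hℓnS hgood
      have hq := rho_quad W p hℓ hgood hℓp A hA τ hτ
      have hz : (((W.apOfModel ℓ : ℤ) : ZMod p) - (1 + (ℓ : ZMod p))) *
          (((W.apOfModel ℓ : ℤ) : ZMod p) + (1 + (ℓ : ZMod p))) = 0 := by
        have := (ZMod.intCast_zmod_eq_zero_iff_dvd _ p).mpr h7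
        push_cast at this
        linear_combination this
      rw [omega_frob p hℓ hℓp A hA τ hτ]
      rcases mul_eq_zero.mp hz with h | h
      · refine ⟨1, one_mul 1, ?_⟩
        have ha : ((W.apOfModel ℓ : ℤ) : ZMod p) = 1 * (1 + (ℓ : ZMod p)) := by
          linear_combination h
        rw [← ha]
        exact hq
      · refine ⟨-1, by ring, ?_⟩
        have ha : ((W.apOfModel ℓ : ℤ) : ZMod p) = -1 * (1 + (ℓ : ZMod p)) := by
          linear_combination h
        rw [← ha]
        exact hq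
    · intro g
      obtain ⟨ℓ, hℓ, hℓS, A, τ, k, j, hA, hτ, h1, h2⟩ :=
        Fermat.Agent.S30.Density.Bridge.frobenius_density_final (fieldL W p ζ) g S'
      refine ⟨τ, ⟨ℓ, A, hℓ, hℓS, hA, hτ⟩, k, j, ?_, ?_, ?_, ?_⟩
      · rw [← map_pow]
        exact rho_eq_of_eqOn W p ζ _ _ h1
      · rw [← map_pow, ← map_pow]
        exact rho_eq_of_eqOn W p ζ _ _ h2
      · rw [← map_pow]
        exact omega_congr p _ _ (fun t ht => h1 t (root_mem_fieldL W p hppos hζ dvd_rfl ht))
      · rw [← map_pow, ← map_pow]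
        exact omega_congr p _ _ (fun t ht => h2 t (root_mem_fieldL W p hppos hζ dvd_rfl ht))
  exact hD.contradiction

end Fermat.Agent.S41.NonEis.InstSq
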