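import Mathlib
import Fermat.Prelude.Def_FLTPrelim_Modularity
import Fermat.Agent.S41.NonEis.InstSq
import Fermat.Agent.S41.NonEis.Main

/-!
# PROJECT R (S41), slice NonEis, squared version

`E/ℚ` elliptic, `W` an integral model, `p` odd with `E[p]` irreducible.  For every finite set `S` of
primes there is a prime `r ∉ S`, good for `W`, with `a_r(W)² ≢ (r + 1)² mod p`.
(Consumer: the operator `T_r² - (r+1)²` of the weak Ihara lemma acts invertibly on the maximal ideal
cut out by the congruence `a_ℓ(f) ≡ a_ℓ(W)`.)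
-/

set_option autoImplicit false
set_option linter.unusedSectionVars false
set_option linter.style.haveILetI false

namespace Fermat.Agent.S41.NonEis.MainSq

open WeierstrassCurve WeierstrassCurve.Affine
open scoped WeierstrassCurve.Affine

local notation "Qb" => AlgebraicClosure ℚ

/-- **Non-Eisenstein from irreducibility, squared version.** -/
theorem exists_prime_ap_sq_ne (E : WeierstrassCurve ℚ) [E.IsElliptic] {W : WeierstrassCurve ℤ}
    (hW : W.IsIntegralModelOf E) {p : ℕ} (hp : p.Prime) (hp2 : p ≠ 2)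
    (hirr : Point.GaloisRepIsIrreducible (K := Qb) ℚ E p) (S : Finset ℕ) :
    ∃ r : ℕ, r.Prime ∧ r ∉ S ∧ W.IsGoodPrimeFor r ∧
      ¬ (p : ℤ) ∣ W.apOfModel r ^ 2 - ((r : ℤ) + 1) ^ 2 := by
  haveI : Fact p.Prime := ⟨hp⟩
  have hΔ := Fermat.Agent.S41.NonEis.Main.disc_ne_zero E hW
  obtain ⟨C, hC⟩ := hW
  have hirr' : Point.GaloisRepIsIrreducible (K := Qb) ℚ (W.map (Int.castRingHom ℚ)) p := by
    rw [← hC]
    exact Fermat.Agent.S41.NonEis.Transfer.irreducible_smul E C p hirr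
  exact Fermat.Agent.S41.NonEis.InstSq.exists_prime_ap_sq_ne_model p hΔ hp2 hirr' S

/-- the two primes needed by the level-raising seam, in one statement: a prime `r` with
`a_r² ≢ (r+1)²` and, for every modulus `D`, a prime `r' ≡ 1 mod D` with `a_{r'} ≢ r' + 1`,
both outside a given finite set and good for `W`. -/
theorem exists_two_primes (E : WeierstrassCurve ℚ) [E.IsElliptic] {W : WeierstrassCurve ℤ}
    (hW : W.IsIntegralModelOf E) {p : ℕ} (hp : p.Prime) (hp2 : p ≠ 2)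
    (hirr : Point.GaloisRepIsIrreducible (K := Qb) ℚ E p) (S : Finset ℕ) :
    ∃ r : ℕ, r.Prime ∧ r ∉ S ∧ W.IsGoodPrimeFor r ∧
      ¬ (p : ℤ) ∣ W.apOfModel r ^ 2 - ((r : ℤ) + 1) ^ 2 ∧
      ∀ D : ℕ, 0 < D → ∃ r' : ℕ, r'.Prime ∧ r' ∉ S ∧ r' ≡ 1 [MOD D] ∧ W.IsGoodPrimeFor r' ∧
        ¬ (p : ℤ) ∣ W.apOfModel r' - ((r' : ℤ) + 1) := by
  obtain ⟨r, h1, h2, h3, h4⟩ := exists_prime_ap_sq_ne E hW hp hp2 hirr S
  exact ⟨r, h1, h2, h3, h4, fun D hD =>
    Fermat.Agent.S41.NonEis.Main.exists_prime_ap_ne E hW hp hp2 hirr D hD S⟩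

end Fermat.Agent.S41.NonEis.MainSq
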